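/-
Local conditions on the finite supports of test functions and the valuation of the invariant.
-/
import Fermat.Agent.LT.Descent.Setting
import Fermat.Agent.LT.Geom.Classes
import Fermat.Agent.LT.Aleph.LocalAdele
import Fermat.Agent.LT.Tame.AdelicAut

set_option autoImplicit false

noncomputable section

open Matrix IsDedekindDomain IsDedekindDomain.HeightOneSpectrum NumberField
open scoped MatrixGroups

namespace Fermat.Agent.LT.Descent

open Fermat.Agent.LT.Adelic Fermat.Agent.LT.Geom Fermat.Agent.LT.Aleph Fermat.Agent.LT.Tame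

section Valued

variable {L : Type*} [Field L] {Γ : Type*} [LinearOrderedCommGroupWithZero Γ] (val : Valuation L Γ)

/-- A scalar multiple has entries bounded by `a⁻¹` and determinant at least `b`. -/
def IsBoxed (a b : Γ) (M : Matrix (Fin 2) (Fin 2) L) : Prop :=
  ∃ t : L, t ≠ 0 ∧ (∀ i j, a * val (t * M i j) ≤ 1) ∧ b ≤ val (t * t * M.det)

/-- A scalar multiple is integral, congruent to `[[0,*],[0,1]]` up to a unit, with determinant of
value `d`. -/
def IwBig (d : Γ) (M : Matrix (Fin 2) (Fin 2) L) : Prop :=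
  ∃ t : L, t ≠ 0 ∧ (∀ i j, val (t * M i j) ≤ 1) ∧ val (t * M 0 0) < 1 ∧ val (t * M 1 0) < 1 ∧
    val (t * M 1 1) = 1 ∧ val (t * t * M.det) = d

/-- A scalar multiple lies in the Iwahori subgroup. -/
def IsIwahori (M : Matrix (Fin 2) (Fin 2) L) : Prop :=
  ∃ t : L, t ≠ 0 ∧ (∀ i j, val (t * M i j) ≤ 1) ∧ val (t * M 0 0) = 1 ∧ val (t * M 1 0) < 1 ∧
    val (t * M 1 1) = 1

variable {val}

theorem val_mul_entry {t t' : L} (M M' : Matrix (Fin 2) (Fin 2) L) (i j : Fin 2) :
    t * t' * (M * M') i j = t * M i 0 * (t' * M' 0 j) + t * M i 1 * (t' * M' 1 j) := by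
  rw [Matrix.mul_apply, Fin.sum_univ_two]; ring

theorem IsBoxed.mul {a b a' b' : Γ} {M M' : Matrix (Fin 2) (Fin 2) L} (h : IsBoxed val a b M)
    (h' : IsBoxed val a' b' M') : IsBoxed val (a * a') (b * b') (M * M') := by
  obtain ⟨t, ht, he, hd⟩ := h
  obtain ⟨t', ht', he', hd'⟩ := h'
  refine ⟨t * t', mul_ne_zero ht ht', fun i j => ?_, ?_⟩
  · have key : ∀ k, a * a' * val (t * M i k * (t' * M' k j)) ≤ 1 := fun k => by
      rw [map_mul, mul_mul_mul_comm]
      exact mul_le_one' (he i k) (he' k j)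
    rw [val_mul_entry]
    refine (mul_le_mul_right (Valuation.map_add _ _ _) _).trans ?_
    rw [mul_max]
    exact max_le (key 0) (key 1)
  · rw [Matrix.det_mul, show t * t' * (t * t') * (M.det * M'.det) =
      (t * t * M.det) * (t' * t' * M'.det) by ring, map_mul]
    exact mul_le_mul' hd hd'

theorem IsBoxed.smul {a b : Γ} {M : Matrix (Fin 2) (Fin 2) L} (h : IsBoxed val a b M) {s : L}
    (hs : s ≠ 0) : IsBoxed val a b (s • M) := by
  obtain ⟨t, ht, he, hd⟩ := h
  refine ⟨t / s, div_ne_zero ht hs, fun i j => ?_, ?_⟩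
  · have e : t / s * (s • M) i j = t * M i j := by
      rw [Matrix.smul_apply, smul_eq_mul]; field_simp
    rw [e]
    exact he i j
  · rw [Matrix.det_smul, Fintype.card_fin]
    refine hd.trans_eq (congrArg val ?_)
    field_simp

theorem IsBoxed.mono {a b a' b' : Γ} {M : Matrix (Fin 2) (Fin 2) L} (h : IsBoxed val a b M)
    (ha : a' ≤ a) (hb : b' ≤ b) : IsBoxed val a' b' M := by
  obtain ⟨t, ht, he, hd⟩ := h
  exact ⟨t, ht, fun i j => (mul_le_mul_left ha _).trans (he i j), hb.trans hd⟩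

/-- The value of the invariant of a boxed matrix. -/
theorem IsBoxed.matInv_le {a b : Γ} {M : Matrix (Fin 2) (Fin 2) L} (h : IsBoxed val a b M)
    (hb : b ≠ 0) : a * a * b * val (matInv M) ≤ 1 := by
  obtain ⟨t, ht, he, hd⟩ := h
  have hD : val (t * t * M.det) ≠ 0 := fun h0 => hb (le_zero_iff.mp (hd.trans h0.le))
  have htr : a * val (t * M 0 0 + t * M 1 1) ≤ 1 := by
    refine (mul_le_mul_right (Valuation.map_add _ _ _) _).trans ?_
    rw [mul_max]
    exact max_le (he 0 0) (he 1 1)
  have e : matInv M = (t * M 0 0 + t * M 1 1) * (t * M 0 0 + t * M 1 1) / (t * t * M.det) := by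
    rw [matInv, Matrix.trace_fin_two]
    field_simp
  rw [e, map_div₀, map_mul, mul_div_assoc', div_le_one₀ (zero_lt_iff.mpr hD)]
  calc a * a * b * (val (t * M 0 0 + t * M 1 1) * val (t * M 0 0 + t * M 1 1))
      = (a * val (t * M 0 0 + t * M 1 1)) * (a * val (t * M 0 0 + t * M 1 1)) * b := by ac_rfl
    _ ≤ 1 * val (t * t * M.det) := mul_le_mul' (mul_le_one' htr htr) hd
    _ = val (t * t * M.det) := one_mul _

theorem IwBig.mul {d d' : Γ} {M M' : Matrix (Fin 2) (Fin 2) L} (h : IwBig val d M)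
    (h' : IwBig val d' M') : IwBig val (d * d') (M * M') := by
  obtain ⟨t, ht, he, h00, h10, h11, hd⟩ := h
  obtain ⟨t', ht', he', h00', h10', h11', hd'⟩ := h'
  refine ⟨t * t', mul_ne_zero ht ht', fun i j => ?_, ?_, ?_, ?_, ?_⟩
  · rw [val_mul_entry]
    refine (Valuation.map_add _ _ _).trans (max_le ?_ ?_) <;> rw [map_mul] <;>
      exact mul_le_one' (he _ _) (he' _ _)
  · rw [val_mul_entry]
    refine Valuation.map_add_lt _ ?_ ?_ <;> rw [map_mul]
    · exact (mul_le_of_le_one_left' (he 0 0)).trans_lt h00'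
    · exact (mul_le_of_le_one_left' (he 0 1)).trans_lt h10'
  · rw [val_mul_entry]
    refine Valuation.map_add_lt _ ?_ ?_ <;> rw [map_mul]
    · exact (mul_le_of_le_one_left' (he 1 0)).trans_lt h00'
    · exact (mul_le_of_le_one_left' (he 1 1)).trans_lt h10'
  · have h1 : val (t * M 1 1 * (t' * M' 1 1)) = 1 := by rw [map_mul, h11, h11', one_mul]
    rw [val_mul_entry, Valuation.map_add_eq_of_lt_right _ ?_, h1]
    rw [h1, map_mul]
    exact (mul_le_of_le_one_right' (he' 0 1)).trans_lt h10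
  · rw [Matrix.det_mul, show t * t' * (t * t') * (M.det * M'.det) =
      (t * t * M.det) * (t' * t' * M'.det) by ring, map_mul, hd, hd']

theorem IwBig.smul {d : Γ} {M : Matrix (Fin 2) (Fin 2) L} (h : IwBig val d M) {s : L}
    (hs : s ≠ 0) : IwBig val d (s • M) := by
  obtain ⟨t, ht, he, h00, h10, h11, hd⟩ := h
  have key : ∀ i j, t / s * (s • M) i j = t * M i j := fun i j => by
    rw [Matrix.smul_apply, smul_eq_mul]; field_simp
  refine ⟨t / s, div_ne_zero ht hs, fun i j => (key i j).symm ▸ he i j, (key 0 0).symm ▸ h00,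
    (key 1 0).symm ▸ h10, (key 1 1).symm ▸ h11, ?_⟩
  rw [Matrix.det_smul, Fintype.card_fin, ← hd]
  congr 1
  field_simp

theorem val_det_iwahori {t : L} {M : Matrix (Fin 2) (Fin 2) L} (he : ∀ i j, val (t * M i j) ≤ 1)
    (h00 : val (t * M 0 0) = 1) (h10 : val (t * M 1 0) < 1) (h11 : val (t * M 1 1) = 1) :
    val (t * t * M.det) = 1 := by
  rw [Matrix.det_fin_two, show t * t * (M 0 0 * M 1 1 - M 0 1 * M 1 0) =
    t * M 0 0 * (t * M 1 1) - t * M 0 1 * (t * M 1 0) by ring]
  have h1 : val (t * M 0 0 * (t * M 1 1)) = 1 := by rw [map_mul, h00, h11, one_mul]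
  rw [Valuation.map_sub_eq_of_lt_left _ ?_, h1]
  rw [h1, map_mul]
  exact (mul_le_of_le_one_left' (he 0 1)).trans_lt h10

theorem IwBig.mul_iwahori {d : Γ} {M M' : Matrix (Fin 2) (Fin 2) L} (h : IwBig val d M)
    (h' : IsIwahori val M') : IwBig val d (M * M') := by
  obtain ⟨t, ht, he, h00, h10, h11, hd⟩ := h
  obtain ⟨t', ht', he', k00, k10, k11⟩ := h'
  refine ⟨t * t', mul_ne_zero ht ht', fun i j => ?_, ?_, ?_, ?_, ?_⟩
  · rw [val_mul_entry]
    refine (Valuation.map_add _ _ _).trans (max_le ?_ ?_) <;> rw [map_mul] <;>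
      exact mul_le_one' (he _ _) (he' _ _)
  · rw [val_mul_entry]
    refine Valuation.map_add_lt _ ?_ ?_ <;> rw [map_mul]
    · rw [k00, mul_one]; exact h00
    · exact (mul_le_of_le_one_left' (he 0 1)).trans_lt k10
  · rw [val_mul_entry]
    refine Valuation.map_add_lt _ ?_ ?_ <;> rw [map_mul]
    · rw [k00, mul_one]; exact h10
    · exact (mul_le_of_le_one_left' (he 1 1)).trans_lt k10
  · have h1 : val (t * M 1 1 * (t' * M' 1 1)) = 1 := by rw [map_mul, h11, k11, one_mul]
    rw [val_mul_entry, Valuation.map_add_eq_of_lt_right _ ?_, h1]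
    rw [h1, map_mul]
    exact (mul_le_of_le_one_right' (he' 0 1)).trans_lt h10
  · rw [Matrix.det_mul, show t * t' * (t * t') * (M.det * M'.det) =
      (t * t * M.det) * (t' * t' * M'.det) by ring, map_mul, hd, val_det_iwahori he' k00 k10 k11,
      mul_one]

theorem IwBig.iwahori_mul {d : Γ} {M M' : Matrix (Fin 2) (Fin 2) L} (h' : IsIwahori val M')
    (h : IwBig val d M) : IwBig val d (M' * M) := by
  obtain ⟨t, ht, he, h00, h10, h11, hd⟩ := h
  obtain ⟨t', ht', he', k00, k10, k11⟩ := h'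
  refine ⟨t' * t, mul_ne_zero ht' ht, fun i j => ?_, ?_, ?_, ?_, ?_⟩
  · rw [val_mul_entry]
    refine (Valuation.map_add _ _ _).trans (max_le ?_ ?_) <;> rw [map_mul] <;>
      exact mul_le_one' (he' _ _) (he _ _)
  · rw [val_mul_entry]
    refine Valuation.map_add_lt _ ?_ ?_ <;> rw [map_mul]
    · exact (mul_le_of_le_one_left' (he' 0 0)).trans_lt h00
    · exact (mul_le_of_le_one_left' (he' 0 1)).trans_lt h10
  · rw [val_mul_entry]
    refine Valuation.map_add_lt _ ?_ ?_ <;> rw [map_mul]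
    · exact (mul_le_of_le_one_left' (he' 1 0)).trans_lt h00
    · exact (mul_le_of_le_one_left' (he' 1 1)).trans_lt h10
  · have h1 : val (t' * M' 1 1 * (t * M 1 1)) = 1 := by rw [map_mul, h11, k11, one_mul]
    rw [val_mul_entry, Valuation.map_add_eq_of_lt_right _ ?_, h1]
    rw [h1, map_mul]
    exact (mul_le_of_le_one_right' (he 0 1)).trans_lt k10
  · rw [Matrix.det_mul, show t' * t * (t' * t) * (M'.det * M.det) =
      (t' * t' * M'.det) * (t * t * M.det) by ring, map_mul, hd, val_det_iwahori he' k00 k10 k11,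
      one_mul]

/-- The value of the invariant of an Iwahori-big matrix. -/
theorem IwBig.matInv_eq {d : Γ} {M : Matrix (Fin 2) (Fin 2) L} (h : IwBig val d M) :
    val (matInv M) = d⁻¹ := by
  obtain ⟨t, ht, -, h00, -, h11, hd⟩ := h
  have htr : val (t * M 0 0 + t * M 1 1) = 1 := by
    rw [Valuation.map_add_eq_of_lt_right _ (by rw [h11]; exact h00), h11]
  have e : matInv M = (t * M 0 0 + t * M 1 1) * (t * M 0 0 + t * M 1 1) / (t * t * M.det) := by
    rw [matInv, Matrix.trace_fin_two]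
    field_simp
  rw [e, map_div₀, map_mul, htr, hd, one_mul, one_div]

end Valued

section Transport

variable {L L' : Type*} [Field L] [Field L'] {Γ : Type*} [LinearOrderedCommGroupWithZero Γ]
  {val : Valuation L Γ} {val' : Valuation L' Γ}

theorem IsBoxed.map {a b : Γ} {M : Matrix (Fin 2) (Fin 2) L} (h : IsBoxed val a b M)
    (e : L →+* L') (he : ∀ x, val' (e x) = val x) : IsBoxed val' a b (M.map e) := by
  obtain ⟨t, ht, hent, hd⟩ := h
  refine ⟨e t, (map_ne_zero e).mpr ht, fun i j => ?_, ?_⟩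
  · rw [Matrix.map_apply, ← map_mul, he]; exact hent i j
  · rw [← RingHom.mapMatrix_apply, ← RingHom.map_det, ← map_mul, ← map_mul, he]; exact hd

theorem IwBig.map {d : Γ} {M : Matrix (Fin 2) (Fin 2) L} (h : IwBig val d M)
    (e : L →+* L') (he : ∀ x, val' (e x) = val x) : IwBig val' d (M.map e) := by
  obtain ⟨t, ht, hent, h00, h10, h11, hd⟩ := h
  refine ⟨e t, (map_ne_zero e).mpr ht, fun i j => ?_, ?_, ?_, ?_, ?_⟩
  · rw [Matrix.map_apply, ← map_mul, he]; exact hent i j
  · rw [Matrix.map_apply, ← map_mul, he]; exact h00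
  · rw [Matrix.map_apply, ← map_mul, he]; exact h10
  · rw [Matrix.map_apply, ← map_mul, he]; exact h11
  · rw [← RingHom.mapMatrix_apply, ← RingHom.map_det, ← map_mul, ← map_mul, he]; exact hd

theorem matInv_map (e : L →+* L') (M : Matrix (Fin 2) (Fin 2) L) :
    matInv (M.map e) = e (matInv M) := by
  rw [matInv, matInv, map_div₀, map_pow, ← RingHom.mapMatrix_apply, ← RingHom.map_det,
    RingHom.mapMatrix_apply, Matrix.trace_fin_two, Matrix.trace_fin_two, map_add, Matrix.map_apply,
    Matrix.map_apply]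

end Transport

section Completion

variable {R S : Type*} [CommRing R] [IsDedekindDomain R] [CommRing S] [IsDedekindDomain S]
  {K L : Type*} [Field K] [Algebra R K] [IsFractionRing R K] [Field L] [Algebra S L]
  [IsFractionRing S L] {w : HeightOneSpectrum R} {v : HeightOneSpectrum S}
  (σ : K ≃+* L) (h : ∀ x, v.valuation L (σ x) = w.valuation K x)

/-- The isomorphism of completions respects the valuations. -/
theorem valued_completionEquiv (x : w.adicCompletion K) :
    Valued.v (completionEquiv σ h x) = Valued.v x := by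
  rcases eq_or_ne x 0 with rfl | hx
  · rw [map_zero, map_zero, map_zero]
  obtain ⟨k, hk⟩ := w.valuation_surjective K (Valued.v x)
  have hk' : Valued.v (k : w.adicCompletion K) = Valued.v x := by
    rw [adicCompletion.valued_coe]; exact hk
  have hk0 : (k : w.adicCompletion K) ≠ 0 := fun h0 => hx (by
    rw [h0, map_zero] at hk'
    exact (Valuation.zero_iff _).mp hk'.symm)
  set y := x / (k : w.adicCompletion K) with hy
  have hy1 : Valued.v y = 1 := by
    rw [hy, map_div₀, hk', div_self ((Valuation.ne_zero_iff _).mpr hx)]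
  have h1 : Valued.v (completionEquiv σ h y) ≤ 1 := completionEquiv_mem_integers σ h hy1.le
  have h2 : Valued.v (completionEquiv σ h y⁻¹) ≤ 1 :=
    completionEquiv_mem_integers σ h (show Valued.v y⁻¹ ≤ 1 by rw [map_inv₀, hy1, inv_one])
  have he : Valued.v (completionEquiv σ h y) = 1 := by
    refine le_antisymm h1 ?_
    by_contra hcon
    push Not at hcon
    have := mul_lt_one_of_lt_of_le hcon h2
    rw [← map_mul, ← map_mul, mul_inv_cancel₀ (fun h0 => by simp [h0] at hy1), map_one, map_one]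
      at this
    exact lt_irrefl _ this
  rw [show x = y * (k : w.adicCompletion K) from (div_mul_cancel₀ x hk0).symm, map_mul, map_mul, he,
    one_mul, completionEquiv_coe, adicCompletion.valued_coe, h, map_mul, hy1, one_mul,
    adicCompletion.valued_coe]

end Completion

variable {K : Type*} [Field K] [NumberField K]

/-- Conjugates of rational matrices have the rational invariant at every place. -/
theorem matInv_localGL_conj (γ : GL (Fin 2) K) (g : GfK K) (v : HeightOneSpectrum (𝓞 K)) :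
    Valued.v (matInv ((localGL K v (g⁻¹ * toGf K γ * g) :
      GL (Fin 2) (v.adicCompletion K)) : Matrix (Fin 2) (Fin 2) (v.adicCompletion K))) =
      v.valuation K (matInv (γ : Matrix (Fin 2) (Fin 2) K)) := by
  have e := matInv_conj (K := v.adicCompletion K) (localGL K v g)⁻¹
    (localGL K v (toGf K γ) : Matrix (Fin 2) (Fin 2) (v.adicCompletion K))
  rw [inv_inv] at e
  rw [map_mul, map_mul, map_inv, Units.val_mul, Units.val_mul, e,
    show (localGL K v (toGf K γ) : Matrix (Fin 2) (Fin 2) (v.adicCompletion K)) =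
      (γ : Matrix (Fin 2) (Fin 2) K).map (algebraMap K (v.adicCompletion K)) from ?_,
    matInv_map, algebraMap_adicCompletion]
  · exact adicCompletion.valued_coe _ _ _
  · ext i j
    rw [localGL_apply, Matrix.map_apply, algebraMap_adicCompletion]
    rfl

namespace HKer

variable {U : Subgroup (GfK K)}

theorem apply_mk (f : HKer U) (g g' : GfK K) :
    f (g : Yf U) (g' : Yf U) = f ((1 : GfK K) : Yf U) ((g⁻¹ * g' : GfK K) : Yf U) := by
  conv_rhs => rw [← f.smul' g]
  show f.toFun _ _ = f.toFun ((g * 1 : GfK K) : Yf U) ((g * (g⁻¹ * g') : GfK K) : Yf U)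
  rw [mul_one, mul_inv_cancel_left]

end HKer

variable {U : Subgroup (GfK K)}

/-- The support of `f` is big at the places in `S`, with exponents in `P`, and boxed elsewhere. -/
structure IsBigOn (f : HKer U) (S : Set (HeightOneSpectrum (𝓞 K))) (a b : 𝓞 K) (P : Set ℤ) :
    Prop where
  away : ∀ M : GfK K, f ((1 : GfK K) : Yf U) (M : Yf U) ≠ 0 → ∀ v ∉ S,
    IsBoxed Valued.v (v.intValuation a) (v.intValuation b)
      (localGL K v M : Matrix (Fin 2) (Fin 2) (v.adicCompletion K))
  pole : ∀ M : GfK K, f ((1 : GfK K) : Yf U) (M : Yf U) ≠ 0 → ∀ v ∈ S,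
    ∃ n ∈ P, IwBig Valued.v (WithZero.exp (-n))
      (localGL K v M : Matrix (Fin 2) (Fin 2) (v.adicCompletion K))

theorem exists_factors_of_comp_ne_zero {f g : HKer U} {M : GfK K}
    (h : (f.comp g) ((1 : GfK K) : Yf U) (M : Yf U) ≠ 0) :
    ∃ M₁ M₂ : GfK K, f ((1 : GfK K) : Yf U) (M₁ : Yf U) ≠ 0 ∧
      g ((1 : GfK K) : Yf U) (M₂ : Yf U) ≠ 0 ∧ M₁ * M₂ = M := by
  obtain ⟨w, hw⟩ := not_forall.mp fun h0 => h (finsum_eq_zero_of_forall_eq_zero h0)
  induction w using QuotientGroup.induction_on with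
  | _ M₁ =>
    refine ⟨M₁, M₁⁻¹ * M, left_ne_zero_of_mul hw, ?_, mul_inv_cancel_left _ _⟩
    rw [← HKer.apply_mk]
    exact right_ne_zero_of_mul hw

theorem IsBigOn.comp {f g : HKer U} {S : Set (HeightOneSpectrum (𝓞 K))} {a b a' b' : 𝓞 K}
    {P Q : Set ℤ} (hf : IsBigOn f S a b P) (hg : IsBigOn g S a' b' Q) :
    IsBigOn (f.comp g) S (a * a') (b * b') (Set.image2 (· + ·) P Q) where
  away M hM v hv := by
    obtain ⟨M₁, M₂, h1, h2, rfl⟩ := exists_factors_of_comp_ne_zero hM
    rw [map_mul (localGL K v), Units.val_mul, map_mul, map_mul]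
    exact (hf.away M₁ h1 v hv).mul (hg.away M₂ h2 v hv)
  pole M hM v hv := by
    obtain ⟨M₁, M₂, h1, h2, rfl⟩ := exists_factors_of_comp_ne_zero hM
    obtain ⟨n, hn, k1⟩ := hf.pole M₁ h1 v hv
    obtain ⟨m, hm, k2⟩ := hg.pole M₂ h2 v hv
    refine ⟨n + m, Set.mem_image2_of_mem hn hm, ?_⟩
    rw [map_mul (localGL K v), Units.val_mul, neg_add, WithZero.exp_add]
    exact k1.mul k2

/-- Composition with a factor supported in the Iwahori subgroup at the places of `S`. -/
theorem IsBigOn.comp_iwahori {f g : HKer U} {S : Set (HeightOneSpectrum (𝓞 K))} {a b a' b' : 𝓞 K}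
    {P : Set ℤ} (hf : IsBigOn f S a b P)
    (hga : ∀ M : GfK K, g ((1 : GfK K) : Yf U) (M : Yf U) ≠ 0 → ∀ v ∉ S,
      IsBoxed Valued.v (v.intValuation a') (v.intValuation b')
        (localGL K v M : Matrix (Fin 2) (Fin 2) (v.adicCompletion K)))
    (hgp : ∀ M : GfK K, g ((1 : GfK K) : Yf U) (M : Yf U) ≠ 0 → ∀ v ∈ S,
      IsIwahori Valued.v (localGL K v M : Matrix (Fin 2) (Fin 2) (v.adicCompletion K))) :
    IsBigOn (f.comp g) S (a * a') (b * b') P ∧ IsBigOn (g.comp f) S (a * a') (b * b') P := by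
  refine ⟨⟨fun M hM v hv => ?_, fun M hM v hv => ?_⟩, ⟨fun M hM v hv => ?_, fun M hM v hv => ?_⟩⟩
  all_goals obtain ⟨M₁, M₂, h1, h2, rfl⟩ := exists_factors_of_comp_ne_zero hM
  all_goals rw [map_mul (localGL K v), Units.val_mul]
  · rw [map_mul, map_mul]; exact (hf.away M₁ h1 v hv).mul (hga M₂ h2 v hv)
  · obtain ⟨n, hn, k⟩ := hf.pole M₁ h1 v hv
    exact ⟨n, hn, k.mul_iwahori (hgp M₂ h2 v hv)⟩
  · rw [map_mul, map_mul, mul_comm (v.intValuation a), mul_comm (v.intValuation b)]
    exact (hga M₁ h1 v hv).mul (hf.away M₂ h2 v hv)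
  · obtain ⟨n, hn, k⟩ := hf.pole M₂ h2 v hv
    exact ⟨n, hn, IwBig.iwahori_mul (hgp M₁ h1 v hv) k⟩

/-- Integral matrices are boxed. -/
theorem isBoxed_of_isIntLocal {v : HeightOneSpectrum (𝓞 K)} {γ : GL (Fin 2) (v.adicCompletion K)}
    (h : IsIntLocal γ) :
    IsBoxed Valued.v 1 1 (γ : Matrix (Fin 2) (Fin 2) (v.adicCompletion K)) := by
  refine ⟨1, one_ne_zero, fun i j => by rw [one_mul, one_mul]; exact (h i j).1, ?_⟩
  rw [one_mul, one_mul]
  by_contra hcon
  push Not at hcon
  have hinv : Valued.v ((γ⁻¹ : GL (Fin 2) (v.adicCompletion K)) :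
      Matrix (Fin 2) (Fin 2) (v.adicCompletion K)).det ≤ 1 := by
    rw [Matrix.det_fin_two]
    refine (Valuation.map_sub _ _ _).trans (max_le ?_ ?_) <;> rw [map_mul] <;>
      exact mul_le_one' (h _ _).2 (h _ _).2
  have := mul_lt_one_of_lt_of_le hcon hinv
  rw [← map_mul, ← Matrix.det_mul, Units.mul_inv, Matrix.det_one, map_one] at this
  exact lt_irrefl _ this

/-- The boxing conditions only depend on the class modulo `U` and the centre. -/
theorem isBoxed_mul_levelZ (hU : U ≤ principalLevel K (1 : 𝓞 K)) {w : GfK K} (hw : w ∈ levelZ U)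
    {v : HeightOneSpectrum (𝓞 K)} {a b : WithZero (Multiplicative ℤ)} {M : GfK K}
    (h : IsBoxed Valued.v a b (localGL K v M : Matrix (Fin 2) (Fin 2) (v.adicCompletion K))) :
    IsBoxed Valued.v a b (localGL K v (M * w) : Matrix (Fin 2) (Fin 2) (v.adicCompletion K)) := by
  obtain ⟨x, hx, z, ⟨t, rfl⟩, rfl⟩ := mem_levelZ.mp hw
  have h1 := h.mul (isBoxed_of_isIntLocal (mem_principalLevel_one_iff.mp (hU hx) v))
  rw [mul_one, mul_one, ← Units.val_mul, ← map_mul] at h1
  have ht : ((t : FiniteAdeleRing (𝓞 K) K) v) ≠ 0 := fun h0 =>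
    valued_unit_ne_zero t v (by rw [h0, map_zero])
  have e : (localGL K v (M * (x * scalarHom (𝓞 K) K t)) :
      Matrix (Fin 2) (Fin 2) (v.adicCompletion K)) = ((t : FiniteAdeleRing (𝓞 K) K) v) •
        (localGL K v (M * x) : Matrix (Fin 2) (Fin 2) (v.adicCompletion K)) := by
    have hs : ∀ i j, (localGL K v (scalarHom (𝓞 K) K t) :
        Matrix (Fin 2) (Fin 2) (v.adicCompletion K)) i j =
        if i = j then (t : FiniteAdeleRing (𝓞 K) K) v else 0 := by
      intro i j
      rw [localGL_apply]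
      show (Matrix.scalar (Fin 2) (t : FiniteAdeleRing (𝓞 K) K) i j) v = _
      rw [Matrix.scalar_apply, Matrix.diagonal_apply]
      split <;> simp [coe_apply_zero]
    rw [← mul_assoc, map_mul, Units.val_mul]
    ext i j
    rw [Matrix.mul_apply, Fin.sum_univ_two, hs, hs, Matrix.smul_apply, smul_eq_mul]
    fin_cases j <;> simp [mul_comm]
  rw [e]
  exact h1.smul ht

/-- Every test function is boxed everywhere by some denominators. -/
theorem exists_boxed (hU : U ≤ principalLevel K (1 : 𝓞 K)) (f : HKer U) :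
    ∃ a b : 𝓞 K, a ≠ 0 ∧ b ≠ 0 ∧ ∀ M : GfK K, f ((1 : GfK K) : Yf U) (M : Yf U) ≠ 0 → ∀ v,
      IsBoxed Valued.v (v.intValuation a) (v.intValuation b)
        (localGL K v M : Matrix (Fin 2) (Fin 2) (v.adicCompletion K)) := by
  classical
  set F := (f.finite_row ((1 : GfK K) : Yf U)).toFinset with hF
  choose rep hrep using fun y : Yf U => QuotientGroup.mk_surjective (s := levelZ U) y
  choose da hda hda' using fun y => exists_den_mat (R := 𝓞 K)
    (rep y : Matrix (Fin 2) (Fin 2) (FiniteAdeleRing (𝓞 K) K))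
  choose db hdb hdb' using fun y => exists_den (R := 𝓞 K)
    ((↑(rep y)⁻¹ : Matrix (Fin 2) (Fin 2) (FiniteAdeleRing (𝓞 K) K)).det)
  refine ⟨∏ y ∈ F, da y, ∏ y ∈ F, db y, Finset.prod_ne_zero_iff.mpr fun y _ => hda y,
    Finset.prod_ne_zero_iff.mpr fun y _ => hdb y, fun M hM v => ?_⟩
  have hy : (M : Yf U) ∈ F := (f.finite_row _).mem_toFinset.mpr hM
  set g := rep (M : Yf U) with hg
  have hbox : IsBoxed Valued.v (v.intValuation (∏ y ∈ F, da y)) (v.intValuation (∏ y ∈ F, db y))
      (localGL K v g : Matrix (Fin 2) (Fin 2) (v.adicCompletion K)) := by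
    refine IsBoxed.mono (a := v.intValuation (da (M : Yf U))) (b := v.intValuation (db (M : Yf U)))
      ⟨1, one_ne_zero, fun i j => ?_, ?_⟩ ?_ ?_
    · have := hda' (M : Yf U) i j v
      rw [coe_apply_mul, map_mul, valued_algebraMap_int] at this
      rw [one_mul]
      exact this
    · have h1 := hdb' (M : Yf U) v
      rw [coe_apply_mul, map_mul, valued_algebraMap_int] at h1
      have h2 : Valued.v (localGL K v g : Matrix (Fin 2) (Fin 2) (v.adicCompletion K)).det *
          Valued.v ((↑g⁻¹ : Matrix (Fin 2) (Fin 2) (FiniteAdeleRing (𝓞 K) K)).det v) = 1 := by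
        have e : ((↑g⁻¹ : Matrix (Fin 2) (Fin 2) (FiniteAdeleRing (𝓞 K) K)).det v) =
            (localGL K v g⁻¹ : Matrix (Fin 2) (Fin 2) (v.adicCompletion K)).det :=
          RingHom.map_det (evalAt K v) (↑g⁻¹ : Matrix (Fin 2) (Fin 2) (FiniteAdeleRing (𝓞 K) K))
        rw [e, map_inv, ← map_mul, ← Matrix.det_mul, Units.mul_inv, Matrix.det_one, map_one]
      rw [one_mul, one_mul]
      calc v.intValuation (db (M : Yf U))
          = Valued.v (localGL K v g : Matrix (Fin 2) (Fin 2) (v.adicCompletion K)).det *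
              (v.intValuation (db (M : Yf U)) *
                Valued.v ((↑g⁻¹ : Matrix (Fin 2) (Fin 2) (FiniteAdeleRing (𝓞 K) K)).det v)) := by
            rw [mul_left_comm, h2, mul_one]
        _ ≤ _ := mul_le_of_le_one_right' h1
    · rw [← Finset.mul_prod_erase _ _ hy, map_mul]
      exact mul_le_of_le_one_right' (intValuation_le_one _ _)
    · rw [← Finset.mul_prod_erase _ _ hy, map_mul]
      exact mul_le_of_le_one_right' (intValuation_le_one _ _)
  have hw : g⁻¹ * M ∈ levelZ U := QuotientGroup.eq.mp (hrep _)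
  simpa using isBoxed_mul_levelZ hU hw hbox

end Fermat.Agent.LT.Descent
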