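/-
Support conditions for test functions given by local matrices.
-/
import Fermat.Agent.LT.Descent.Support.Local
import Fermat.Agent.LT.Descent.Tensor
import Fermat.Agent.LT.Descent.Levels
import Fermat.Agent.LT.Descent.IwahoriLocal

set_option autoImplicit false

noncomputable section

open Matrix IsDedekindDomain IsDedekindDomain.HeightOneSpectrum NumberField
open scoped MatrixGroups

namespace Fermat.Agent.LT.Descent

open Fermat.Agent.LT.Adelic Fermat.Agent.LT.Aleph Fermat.Agent.LT.Tame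

variable {K : Type*} [Field K] [NumberField K]
  {V : ∀ v : HeightOneSpectrum (𝓞 K), Subgroup (GL (Fin 2) (v.adicCompletion K))}

/-- Every matrix in the support of the row at the base point satisfies `Q`. -/
def LKer.SuppIn {v : HeightOneSpectrum (𝓞 K)}
    (f : LKer PGL(2, v.adicCompletion K) (LocY V v))
    (Q : Matrix (Fin 2) (Fin 2) (v.adicCompletion K) → Prop) : Prop :=
  ∀ γ : GL (Fin 2) (v.adicCompletion K),
    f (basePt V v) ((ProjGenLinGroup.mk γ : PGL(2, v.adicCompletion K)) : LocY V v) ≠ 0 →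
      Q (γ : Matrix (Fin 2) (Fin 2) (v.adicCompletion K))

theorem LKer.SuppIn.mono {v : HeightOneSpectrum (𝓞 K)}
    {f : LKer PGL(2, v.adicCompletion K) (LocY V v)}
    {Q Q' : Matrix (Fin 2) (Fin 2) (v.adicCompletion K) → Prop} (h : f.SuppIn Q)
    (hQ : ∀ M, Q M → Q' M) : f.SuppIn Q' := fun γ hγ => hQ _ (h γ hγ)

/-- Supports multiply under composition. -/
theorem LKer.SuppIn.comp {v : HeightOneSpectrum (𝓞 K)}
    {f g : LKer PGL(2, v.adicCompletion K) (LocY V v)}
    {Q₁ Q₂ Q : Matrix (Fin 2) (Fin 2) (v.adicCompletion K) → Prop} (hf : f.SuppIn Q₁)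
    (hg : g.SuppIn Q₂) (hQ : ∀ M N, Q₁ M → Q₂ N → Q (M * N)) : (f.comp g).SuppIn Q := by
  intro γ hγ
  obtain ⟨c, hc⟩ := not_forall.mp fun h0 => hγ (finsum_eq_zero_of_forall_eq_zero h0)
  induction c using QuotientGroup.induction_on with | _ p =>
  induction p using ProjGenLinGroup.induction_on with | mk γ₁ =>
  have h2 : g (basePt V v)
      ((ProjGenLinGroup.mk (γ₁⁻¹ * γ) : PGL(2, v.adicCompletion K)) : LocY V v) ≠ 0 := by
    rw [← g.smul' (ProjGenLinGroup.mk γ₁), basePt, MulAction.Quotient.smul_coe,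
      MulAction.Quotient.smul_coe, smul_eq_mul, smul_eq_mul, mul_one, ← map_mul, mul_inv_cancel_left]
    exact right_ne_zero_of_mul hc
  have := hQ _ _ (hf γ₁ (left_ne_zero_of_mul hc)) (hg _ h2)
  rwa [← Units.val_mul, mul_inv_cancel_left] at this

theorem exists_eq_smul_mul {v : HeightOneSpectrum (𝓞 K)} {γ γ' : GL (Fin 2) (v.adicCompletion K)}
    (h : ((ProjGenLinGroup.mk γ : PGL(2, v.adicCompletion K)) : LocY V v) =
      ((ProjGenLinGroup.mk γ' : PGL(2, v.adicCompletion K)) : LocY V v)) :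
    ∃ k ∈ V v, ∃ s : v.adicCompletion K, s ≠ 0 ∧
      (γ' : Matrix (Fin 2) (Fin 2) (v.adicCompletion K)) =
        s • ((γ : Matrix (Fin 2) (Fin 2) (v.adicCompletion K)) * (k : Matrix (Fin 2) (Fin 2) _)) := by
  obtain ⟨k, hk, he⟩ := QuotientGroup.eq.mp h
  rw [← map_inv, ← map_mul] at he
  obtain ⟨t, ht⟩ := ProjGenLinGroup.mk_eq_mk_iff.mp he
  refine ⟨k, hk, t, t.ne_zero, ?_⟩
  have : γ' = γ * (k * GeneralLinearGroup.scalar (Fin 2) t) := by rw [ht, mul_inv_cancel_left]
  rw [this, Units.val_mul, Units.val_mul]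
  ext i j
  fin_cases i <;> fin_cases j <;>
    simp [Matrix.mul_apply, GeneralLinearGroup.coe_scalar, Fin.sum_univ_two] <;> ring

/-- It is enough to look at one matrix in each class. -/
theorem LKer.suppIn_of_reps {v : HeightOneSpectrum (𝓞 K)}
    {f : LKer PGL(2, v.adicCompletion K) (LocY V v)}
    {Q : Matrix (Fin 2) (Fin 2) (v.adicCompletion K) → Prop}
    (hQmul : ∀ M, Q M → ∀ k ∈ V v, Q (M * (k : Matrix (Fin 2) (Fin 2) (v.adicCompletion K))))
    (hQsmul : ∀ M, Q M → ∀ s : v.adicCompletion K, s ≠ 0 → Q (s • M))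
    (h : ∀ c : LocY V v, f (basePt V v) c ≠ 0 → ∃ γ : GL (Fin 2) (v.adicCompletion K),
      ((ProjGenLinGroup.mk γ : PGL(2, v.adicCompletion K)) : LocY V v) = c ∧
        Q (γ : Matrix (Fin 2) (Fin 2) (v.adicCompletion K))) : f.SuppIn Q := by
  intro γ hγ
  obtain ⟨γ₀, he, hQ⟩ := h _ hγ
  obtain ⟨k, hk, s, hs, heq⟩ := exists_eq_smul_mul he
  rw [heq]
  exact hQsmul _ (hQmul _ hQ k hk) s hs

/-- The identity is supported on the level up to scalars. -/
theorem LKer.suppIn_one {v : HeightOneSpectrum (𝓞 K)}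
    {Q : Matrix (Fin 2) (Fin 2) (v.adicCompletion K) → Prop}
    (hV : ∀ k ∈ V v, ∀ s : v.adicCompletion K, s ≠ 0 →
      Q (s • (k : Matrix (Fin 2) (Fin 2) (v.adicCompletion K)))) :
    (LKer.one PGL(2, v.adicCompletion K) (LocY V v)).SuppIn Q := by
  intro γ hγ
  have he : basePt V v = ((ProjGenLinGroup.mk γ : PGL(2, v.adicCompletion K)) : LocY V v) := by
    by_contra hne
    exact hγ (LKer.one_apply_ne hne)
  rw [basePt, ← map_one (ProjGenLinGroup.mk (n := Fin 2) (R := v.adicCompletion K))] at he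
  obtain ⟨k, hk, s, hs, heq⟩ := exists_eq_smul_mul he
  rw [heq, Units.val_one, one_mul]
  exact hV k hk s hs

/-- The support of a family at a point of the support of its matrix. -/
theorem KerFamily.ker_apply_ne_zero (hV : IsLocalLevel V) (k : KerFamily V) {M : GfK K}
    (h : (k.toHKer hV) ((1 : GfK K) : Yf (productLevel V)) (M : Yf (productLevel V)) ≠ 0)
    (v : HeightOneSpectrum (𝓞 K)) :
    k.ker v (basePt V v)
      ((ProjGenLinGroup.mk (localGL K v M) : PGL(2, v.adicCompletion K)) : LocY V v) ≠ 0 := by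
  have h1 := KerFamily.ne_zero_of_finprod hV k h v
  rw [locY_mk, locY_mk, map_one] at h1
  exact h1

/-- **Big support from local conditions.** -/
theorem isBigOn_toHKer (hV : IsLocalLevel V) (k : KerFamily V)
    {S : Set (HeightOneSpectrum (𝓞 K))} {a b : 𝓞 K} {P : Set ℤ}
    (haway : ∀ v ∉ S, (k.ker v).SuppIn
      (IsBoxed Valued.v (v.intValuation a) (v.intValuation b)))
    (hpole : ∀ v ∈ S, (k.ker v).SuppIn
      fun M => ∃ n ∈ P, IwBig Valued.v (WithZero.exp (-n)) M) :
    IsBigOn (k.toHKer hV) S a b P where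
  away _ hM v hv := haway v hv _ (k.ker_apply_ne_zero hV hM v)
  pole _ hM v hv := hpole v hv _ (k.ker_apply_ne_zero hV hM v)

/-- The identity is boxed by `1`, hence by everything. -/
theorem LKer.suppIn_one_boxed (hV : IsLocalLevel V) (v : HeightOneSpectrum (𝓞 K)) (a b : 𝓞 K) :
    (LKer.one PGL(2, v.adicCompletion K) (LocY V v)).SuppIn
      (IsBoxed Valued.v (v.intValuation a) (v.intValuation b)) :=
  LKer.suppIn_one fun _ hk _ hs => ((isBoxed_of_isIntLocal (hV.le v hk)).smul hs).mono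
    (intValuation_le_one v a) (intValuation_le_one v b)

/-- Every family is boxed everywhere. -/
theorem exists_boxed_toHKer (hV : IsLocalLevel V) (k : KerFamily V) :
    ∃ a b : 𝓞 K, a ≠ 0 ∧ b ≠ 0 ∧ ∀ M : GfK K,
      (k.toHKer hV) ((1 : GfK K) : Yf (productLevel V)) (M : Yf (productLevel V)) ≠ 0 → ∀ v,
      IsBoxed Valued.v (v.intValuation a) (v.intValuation b)
        (localGL K v M : Matrix (Fin 2) (Fin 2) (v.adicCompletion K)) :=
  exists_boxed (productLevel_le hV.le) _

theorem isIwahori_of_mem {v : HeightOneSpectrum (𝓞 K)} {γ : GL (Fin 2) (v.adicCompletion K)}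
    (h : γ ∈ iwahori v) :
    IsIwahori Valued.v (γ : Matrix (Fin 2) (Fin 2) (v.adicCompletion K)) := by
  obtain ⟨hint, h10, -⟩ := mem_iwahori.mp h
  obtain ⟨-, hd⟩ : IsBoxed Valued.v 1 1 (γ : Matrix (Fin 2) (Fin 2) (v.adicCompletion K)) ∧
      1 ≤ Valued.v (γ : Matrix (Fin 2) (Fin 2) (v.adicCompletion K)).det := by
    refine ⟨isBoxed_of_isIntLocal hint, ?_⟩
    have hinv : Valued.v ((γ⁻¹ : GL (Fin 2) (v.adicCompletion K)) :
        Matrix (Fin 2) (Fin 2) (v.adicCompletion K)).det ≤ 1 := by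
      rw [Matrix.det_fin_two]
      refine (Valuation.map_sub _ _ _).trans (max_le ?_ ?_) <;> rw [map_mul] <;>
        exact mul_le_one' (hint _ _).2 (hint _ _).2
    have h1 : Valued.v (γ : Matrix (Fin 2) (Fin 2) (v.adicCompletion K)).det *
        Valued.v ((γ⁻¹ : GL (Fin 2) (v.adicCompletion K)) :
          Matrix (Fin 2) (Fin 2) (v.adicCompletion K)).det = 1 := by
      rw [← map_mul, ← Matrix.det_mul, Units.mul_inv, Matrix.det_one, map_one]
    rw [← h1]
    exact mul_le_of_le_one_right' hinv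
  have hmain : 1 ≤ Valued.v ((γ : Matrix (Fin 2) (Fin 2) (v.adicCompletion K)) 0 0) *
      Valued.v ((γ : Matrix (Fin 2) (Fin 2) (v.adicCompletion K)) 1 1) := by
    rw [← map_mul]
    by_contra hcon
    push Not at hcon
    rw [Matrix.det_fin_two] at hd
    refine absurd hd (not_le.mpr (lt_of_le_of_lt (Valuation.map_sub _ _ _) (max_lt hcon ?_)))
    rw [map_mul]
    exact (mul_le_of_le_one_left' (hint 0 1).1).trans_lt h10
  refine ⟨1, one_ne_zero, fun i j => by rw [one_mul]; exact (hint i j).1, ?_, by rwa [one_mul], ?_⟩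
  · rw [one_mul]
    exact le_antisymm (hint 0 0).1 (hmain.trans (mul_le_of_le_one_right' (hint 1 1).1))
  · rw [one_mul]
    exact le_antisymm (hint 1 1).1 (hmain.trans (mul_le_of_le_one_left' (hint 0 0).1))

theorem IsIwahori.smul {L : Type*} [Field L] {Γ : Type*} [LinearOrderedCommGroupWithZero Γ]
    {val : Valuation L Γ} {M : Matrix (Fin 2) (Fin 2) L} (h : IsIwahori val M) {s : L}
    (hs : s ≠ 0) : IsIwahori val (s • M) := by
  obtain ⟨t, ht, he, h00, h10, h11⟩ := h
  have key : ∀ i j, t / s * (s • M) i j = t * M i j := fun i j => by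
    rw [Matrix.smul_apply, smul_eq_mul]; field_simp
  exact ⟨t / s, div_ne_zero ht hs, fun i j => (key i j).symm ▸ he i j, (key 0 0).symm ▸ h00,
    (key 1 0).symm ▸ h10, (key 1 1).symm ▸ h11⟩

/-- The identity at an Iwahori place. -/
theorem LKer.suppIn_one_iwahori {v : HeightOneSpectrum (𝓞 K)} (hv : V v ≤ iwahori v) :
    (LKer.one PGL(2, v.adicCompletion K) (LocY V v)).SuppIn (IsIwahori Valued.v) :=
  LKer.suppIn_one fun _ hk _ hs => (isIwahori_of_mem (hv hk)).smul hs

/-- The matrix of a double coset of a big element at an Iwahori place. -/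
theorem LKer.suppIn_ofNbrs {v : HeightOneSpectrum (𝓞 K)} (hv : V v ≤ iwahori v)
    (d : GL (Fin 2) (v.adicCompletion K)) {e : WithZero (Multiplicative ℤ)}
    (hd : IwBig Valued.v e (d : Matrix (Fin 2) (Fin 2) (v.adicCompletion K)))
    (h : ∀ a : LocY V v, (cosetNbrs (ProjGenLinGroup.mk d) a).Finite)
    (h' : ∀ a : LocY V v, (cosetNbrs (ProjGenLinGroup.mk d)⁻¹ a).Finite) :
    (LKer.ofNbrs (ProjGenLinGroup.mk d) h h').SuppIn (IwBig Valued.v e) := by
  refine LKer.suppIn_of_reps (fun M hM k hk => hM.mul_iwahori (isIwahori_of_mem (hv hk)))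
    (fun M hM s hs => hM.smul hs) fun c hc => ?_
  rw [LKer.ofNbrs_apply] at hc
  have hmem := Set.mem_of_indicator_ne_zero hc
  rw [basePt, cosetNbrs_mk] at hmem
  obtain ⟨u, ⟨k, hk, rfl⟩, rfl⟩ := hmem
  exact ⟨k * d, by simp only [map_mul, one_mul],
    by rw [Units.val_mul]; exact IwBig.iwahori_mul (isIwahori_of_mem (hv hk)) hd⟩

/-- `diag(ϖ, 1)` is big. -/
theorem iwBig_diag2 {v : HeightOneSpectrum (𝓞 K)} (x : (v.adicCompletion K)ˣ)
    (hx : Valued.v (x : v.adicCompletion K) < 1) :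
    IwBig Valued.v (Valued.v (x : v.adicCompletion K))
      (diag2 x 1 : GL (Fin 2) (v.adicCompletion K)).1 := by
  refine ⟨1, one_ne_zero, fun i j => ?_, ?_, ?_, ?_, ?_⟩
  · rw [one_mul]
    fin_cases i <;> fin_cases j <;> simp [hx.le]
  all_goals simp [hx, Matrix.det_fin_two]

/-- An element of `GL₂(Ô)` outside the Iwahori times the Atkin–Lehner matrix is big. -/
theorem iwBig_mul_atkinMat {v : HeightOneSpectrum (𝓞 K)} {γ : GL (Fin 2) (v.adicCompletion K)}
    (hint : IsIntLocal γ) (h10 : Valued.v ((γ : Matrix (Fin 2) (Fin 2) (v.adicCompletion K)) 1 0) = 1)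
    (ϖ : (v.adicCompletion K)ˣ) (hϖ : Valued.v (ϖ : v.adicCompletion K) < 1) :
    IwBig Valued.v (Valued.v (ϖ : v.adicCompletion K))
      ((γ * atkinMat ϖ : GL (Fin 2) (v.adicCompletion K)) :
        Matrix (Fin 2) (Fin 2) (v.adicCompletion K)) := by
  have hdet : Valued.v (γ : Matrix (Fin 2) (Fin 2) (v.adicCompletion K)).det = 1 := by
    have h1 : ∀ g : GL (Fin 2) (v.adicCompletion K), IsIntLocal g →
        Valued.v (g : Matrix (Fin 2) (Fin 2) (v.adicCompletion K)).det ≤ 1 := fun g hg => by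
      rw [Matrix.det_fin_two]
      refine (Valuation.map_sub _ _ _).trans (max_le ?_ ?_) <;> rw [map_mul] <;>
        exact mul_le_one' (hg _ _).1 (hg _ _).1
    refine le_antisymm (h1 γ hint) ?_
    calc (1 : WithZero (Multiplicative ℤ)) =
          Valued.v (γ : Matrix (Fin 2) (Fin 2) (v.adicCompletion K)).det *
            Valued.v (↑γ⁻¹ : Matrix (Fin 2) (Fin 2) (v.adicCompletion K)).det := by
          rw [← map_mul, ← Matrix.det_mul, Units.mul_inv, Matrix.det_one, map_one]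
      _ ≤ _ := mul_le_of_le_one_right' (h1 _ hint.inv)
  have hM : ((γ * atkinMat ϖ : GL (Fin 2) (v.adicCompletion K)) :
      Matrix (Fin 2) (Fin 2) (v.adicCompletion K)) =
      !![(γ : Matrix (Fin 2) (Fin 2) (v.adicCompletion K)) 0 1 * ϖ, -(γ : Matrix (Fin 2) (Fin 2) (v.adicCompletion K)) 0 0;
        (γ : Matrix (Fin 2) (Fin 2) (v.adicCompletion K)) 1 1 * ϖ, -(γ : Matrix (Fin 2) (Fin 2) (v.adicCompletion K)) 1 0] := by
    rw [Units.val_mul, coe_atkinMat]
    ext i j
    fin_cases i <;> fin_cases j <;> simp [Matrix.mul_apply, Fin.sum_univ_two]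
  rw [hM]
  refine ⟨1, one_ne_zero, fun i j => ?_, ?_, ?_, ?_, ?_⟩
  · rw [one_mul]
    fin_cases i <;> fin_cases j <;> simp [map_mul, (hint 0 0).1, (hint 1 0).1,
      mul_le_one' (hint 0 1).1 hϖ.le, mul_le_one' (hint 1 1).1 hϖ.le]
  · simpa [map_mul] using (mul_le_of_le_one_left' (hint 0 1).1).trans_lt hϖ
  · simpa [map_mul] using (mul_le_of_le_one_left' (hint 1 1).1).trans_lt hϖ
  · simpa using h10
  · rw [one_mul, one_mul, ← hM, Units.val_mul, Matrix.det_mul, map_mul, hdet, one_mul, coe_atkinMat,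
      Matrix.det_fin_two]
    simp

end Fermat.Agent.LT.Descent
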