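/-
Invariants `c = tr²/det` with one large pole at `u` and bounded elsewhere are elliptic regular and
lie in a finite set.
-/
import Fermat.Agent.LT.Reduction.Frame
import Mathlib.RingTheory.DedekindDomain.AdicValuation

set_option autoImplicit false

noncomputable section

open NumberField IsDedekindDomain IsDedekindDomain.HeightOneSpectrum WithZero

namespace Fermat.Agent.LT.Descent

open Fermat.Agent.LT.Reduction

variable {K : Type*} [Field K] [NumberField K] {ι : Type*} [Fintype ι] {emb : ι → (K →+* ℂ)}

/-- The conditions on an invariant: poles bounded by `B` away from `u`, order `-N` at `u`, bounded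
at infinity. -/
structure InvBound (emb : ι → (K →+* ℂ)) (B : 𝓞 K) (T : ℝ) (u : HeightOneSpectrum (𝓞 K)) (N : ℤ)
    (c : K) : Prop where
  away : ∀ v, v ≠ u → v.intValuation B * v.valuation K c ≤ 1
  pole : u.valuation K c = exp N
  bound : ∀ i, ‖emb i c‖ ≤ T

theorem mul_valuation_root_le {v : HeightOneSpectrum (𝓞 K)} {b : WithZero (Multiplicative ℤ)}
    (hb : b ≤ 1) {x y s : K} (hxy : x * y = 1) (hs : x + y = s)
    (h : b * v.valuation K s ≤ 1) : b * v.valuation K x ≤ 1 := by
  by_contra hcon
  push Not at hcon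
  have hx1 : 1 < v.valuation K x := hcon.trans_le (mul_le_of_le_one_left' hb)
  have hprod : v.valuation K x * v.valuation K y = 1 := by rw [← map_mul, hxy, map_one]
  have hy1 : v.valuation K y ≤ 1 := by
    by_contra hy
    push Not at hy
    exact (one_lt_mul hx1.le hy).ne' hprod
  have hs' : v.valuation K s = v.valuation K x := by
    rw [← hs]
    exact Valuation.map_add_eq_of_lt_left _ (hy1.trans_lt hx1)
  rw [hs'] at h
  exact absurd h (not_le.mpr hcon)

theorem exists_mem_integers {x : K} (h : ∀ v : HeightOneSpectrum (𝓞 K), v.valuation K x ≤ 1) :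
    ∃ a : 𝓞 K, x = a := by
  obtain ⟨a, ha⟩ := HeightOneSpectrum.mem_integers_of_valuation_le_one K x h
  exact ⟨a, ha.symm⟩

/-- A high pole at `u` forces an elliptic regular invariant. -/
theorem exists_elliptic_bound (hF : IsFrame emb) {B : 𝓞 K} (hB : B ≠ 0) (T : ℝ)
    (u : HeightOneSpectrum (𝓞 K)) :
    ∃ n0 : ℕ, ∀ (N : ℤ) (c : K), (n0 : ℤ) < N → InvBound emb B T u N c →
      c ≠ 0 ∧ c ≠ 4 ∧ ¬ IsSquare (c ^ 2 - 4 * c) := by
  classical
  set T' : ℝ := (|T| + 4) * ∑ i, ‖emb i (B : K)‖ with hT'
  have hfin := hF.finite_bounded (d := (1 : 𝓞 K)) one_ne_zero T'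
  refine ⟨hfin.toFinset.sup fun x => (-log (u.valuation K x)).toNat, fun N c hN hc => ?_⟩
  have hN0 : 0 < N := lt_of_le_of_lt (Nat.cast_nonneg _) hN
  have hbig : 1 < u.valuation K c := by
    rw [hc.pole, ← exp_zero, exp_lt_exp]; exact hN0
  have hc0 : c ≠ 0 := fun h => by rw [h, map_zero] at hbig; exact not_lt.mpr zero_le hbig
  have hint : ∀ n : ℕ, ∀ v : HeightOneSpectrum (𝓞 K), v.valuation K (n : K) ≤ 1 := fun n v => by
    rw [← map_natCast (algebraMap (𝓞 K) K)]
    exact valuation_le_one v _
  refine ⟨hc0, fun h => ?_, ?_⟩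
  · rw [h] at hbig
    exact not_lt.mpr (by exact_mod_cast hint 4 u) hbig
  rintro ⟨s, hs⟩
  obtain ⟨x, y, hxy, hsum, hxu⟩ : ∃ x y : K, x * y = 1 ∧ x + y = c - 2 ∧
      u.valuation K x ≤ u.valuation K y := by
    have h1 : (c - 2 + s) / 2 * ((c - 2 - s) / 2) = 1 := by linear_combination (1 / 4 : K) * hs
    have h2 : (c - 2 + s) / 2 + (c - 2 - s) / 2 = c - 2 := by ring
    rcases le_total (u.valuation K ((c - 2 + s) / 2)) (u.valuation K ((c - 2 - s) / 2)) with h | h
    · exact ⟨_, _, h1, h2, h⟩
    · exact ⟨_, _, by rw [mul_comm, h1], by rw [add_comm, h2], h⟩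
  have h2u : u.valuation K (c - 2) = exp N := by
    rw [← hc.pole]
    exact Valuation.map_sub_eq_of_lt_left _ ((hint 2 u).trans_lt hbig |> fun h => by exact_mod_cast h)
  have hprod : u.valuation K x * u.valuation K y = 1 := by rw [← map_mul, hxy, map_one]
  have hyN : u.valuation K y = exp N := by
    have hx0 : u.valuation K x ≤ 1 := by
      by_contra hcon
      push Not at hcon
      exact (one_lt_mul hcon.le (hcon.trans_le hxu)).ne' hprod
    have hyle : exp N ≤ u.valuation K y := by
      rw [← h2u, ← hsum]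
      exact (Valuation.map_add _ _ _).trans (max_le hxu le_rfl)
    rw [← h2u, ← hsum]
    exact (Valuation.map_add_eq_of_lt_right _
      (hx0.trans_lt (lt_of_lt_of_le (hc.pole ▸ hbig) hyle))).symm
  have hxN : u.valuation K x = exp (-N) := by
    rw [hyN] at hprod
    rw [exp_neg]
    exact eq_inv_of_mul_eq_one_left hprod
  obtain ⟨a, ha⟩ := exists_mem_integers (x := (B : K) * x) fun v => by
    rw [map_mul, valuation_of_algebraMap]
    rcases eq_or_ne v u with rfl | hv
    · rw [hxN]
      exact mul_le_one' (intValuation_le_one v B) (by rw [← exp_zero, exp_le_exp]; omega)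
    · refine mul_valuation_root_le (intValuation_le_one v B) hxy hsum ?_
      calc v.intValuation B * v.valuation K (c - 2)
          ≤ v.intValuation B * max (v.valuation K c) (v.valuation K 2) :=
            mul_le_mul_right (Valuation.map_sub _ _ _) _
        _ ≤ 1 := by
            rw [mul_max]
            exact max_le (hc.away v hv)
              (mul_le_one' (intValuation_le_one v B) (by exact_mod_cast hint 2 v))
  have hmem : (B : K) * x ∈ hfin.toFinset := by
    rw [hfin.mem_toFinset]
    refine ⟨⟨a, by simpa using ha⟩, fun i => ?_⟩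
    have hxy' : ‖emb i x‖ * ‖emb i y‖ = 1 := by rw [← norm_mul, ← map_mul, hxy, map_one, norm_one]
    have hbx : ‖emb i x‖ ≤ |T| + 4 := by
      rcases le_total ‖emb i x‖ 1 with h | h
      · linarith [abs_nonneg T]
      · have hy : ‖emb i y‖ ≤ 1 := by nlinarith [norm_nonneg (emb i y)]
        have : ‖emb i x‖ ≤ ‖emb i (c - 2)‖ + ‖emb i y‖ := by
          rw [show emb i x = emb i (c - 2) - emb i y by rw [← hsum, map_add, add_sub_cancel_right]]
          exact norm_sub_le _ _
        have h2 : ‖emb i (c - 2)‖ ≤ |T| + 2 := by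
          rw [map_sub, map_ofNat]
          refine (norm_sub_le _ _).trans ?_
          rw [Complex.norm_ofNat]
          linarith [hc.bound i, le_abs_self T]
        linarith
    rw [map_mul, norm_mul, hT', mul_comm (|T| + 4)]
    exact mul_le_mul (Finset.single_le_sum (f := fun i => ‖emb i (B : K)‖)
      (fun _ _ => norm_nonneg _) (Finset.mem_univ i)) hbx (norm_nonneg _)
      (Finset.sum_nonneg fun _ _ => norm_nonneg _)
  have hle := Finset.le_sup (f := fun x => (-log (u.valuation K x)).toNat) hmem
  have hBx0 : u.valuation K ((B : K) * x) ≠ 0 := by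
    rw [ne_eq, Valuation.zero_iff]
    exact mul_ne_zero (by simpa using hB) (left_ne_zero_of_mul_eq_one hxy)
  have hval : log (u.valuation K ((B : K) * x)) ≤ -N := by
    rw [← exp_le_exp, exp_log hBx0, map_mul, valuation_of_algebraMap, hxN]
    exact mul_le_of_le_one_left' (intValuation_le_one u B)
  have := (Int.self_le_toNat (-log (u.valuation K ((B : K) * x))))
  omega

/-- For a fixed order at `u` the invariants lie in a finite set. -/
theorem finite_invBound (hF : IsFrame emb) {B : 𝓞 K} (hB : B ≠ 0) (T : ℝ)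
    (u : HeightOneSpectrum (𝓞 K)) (N : ℕ) :
    {c : K | InvBound emb B T u (N : ℤ) c}.Finite := by
  obtain ⟨π, hπ⟩ := intValuation_exists_uniformizer u
  have hπ0 : π ≠ 0 := fun h => by rw [h, map_zero] at hπ; exact exp_ne_zero hπ.symm
  refine (hF.finite_bounded (d := B * π ^ N) (mul_ne_zero hB (pow_ne_zero _ hπ0)) T).subset
    fun c hc => ⟨exists_mem_integers fun v => ?_, hc.bound⟩
  rw [map_mul, valuation_of_algebraMap, map_mul, map_pow, mul_comm]
  rcases eq_or_ne v u with rfl | hv
  · rw [hπ, hc.pole, ← exp_nsmul, mul_assoc, ← exp_add]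
    exact mul_le_one' (intValuation_le_one v B)
      (by rw [← exp_zero, exp_le_exp, smul_neg, nsmul_eq_mul, mul_one]; omega)
  · rw [mul_right_comm]
    exact mul_le_one' (hc.away v hv) (pow_le_one₀ zero_le (intValuation_le_one v π))

end Fermat.Agent.LT.Descent
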