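/-
Matrices moving a point a bounded distance: the invariant is bounded and, in a Siegel box, only
finitely many are not upper triangular.
-/
import Fermat.Agent.LT.Reduction.Siegel
import Fermat.Agent.LT.Geom.Classes

set_option autoImplicit false

noncomputable section

open Matrix NumberField
open scoped MatrixGroups ComplexConjugate

namespace Fermat.Agent.LT.Descent

open Fermat.Agent.LT.Adelic Fermat.Agent.LT.Reduction Fermat.Agent.LT.Geom

/-- The sum of the squared norms of the entries. -/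
def entrySq (M : Matrix (Fin 2) (Fin 2) ℂ) : ℝ :=
  Complex.normSq (M 0 0) + Complex.normSq (M 0 1) + Complex.normSq (M 1 0) + Complex.normSq (M 1 1)

theorem normSq_add_le (x y : ℂ) :
    Complex.normSq (x + y) ≤ 2 * Complex.normSq x + 2 * Complex.normSq y := by
  simp only [Complex.normSq_apply, Complex.add_re, Complex.add_im]
  nlinarith [sq_nonneg (x.re - y.re), sq_nonneg (x.im - y.im)]

theorem normSq_trace_le (M : Matrix (Fin 2) (Fin 2) ℂ) :
    Complex.normSq M.trace ≤ 2 * entrySq M := by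
  rw [Matrix.trace_fin_two, entrySq]
  have := normSq_add_le (M 0 0) (M 1 1)
  have := Complex.normSq_nonneg (M 0 1)
  have := Complex.normSq_nonneg (M 1 0)
  linarith

theorem normSq_le_entrySq (M : Matrix (Fin 2) (Fin 2) ℂ) (i j : Fin 2) :
    Complex.normSq (M i j) ≤ entrySq M := by
  have := Complex.normSq_nonneg (M 0 0)
  have := Complex.normSq_nonneg (M 0 1)
  have := Complex.normSq_nonneg (M 1 0)
  have := Complex.normSq_nonneg (M 1 1)
  rw [entrySq]
  fin_cases i <;> fin_cases j <;> simp only [Fin.zero_eta, Fin.mk_one] <;> linarith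

theorem normSq_inner_le (a b c d : ℂ) :
    Complex.normSq (a * c + b * d) ≤
      (Complex.normSq a + Complex.normSq b) * (Complex.normSq c + Complex.normSq d) := by
  have key : (Complex.normSq a + Complex.normSq b) * (Complex.normSq c + Complex.normSq d) =
      Complex.normSq (a * c + b * d) + Complex.normSq (a * conj d - b * conj c) := by
    simp only [Complex.normSq_apply, Complex.add_re, Complex.add_im, Complex.sub_re, Complex.sub_im,
      Complex.mul_re, Complex.mul_im, Complex.conj_re, Complex.conj_im]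
    ring
  rw [key]
  exact le_add_of_nonneg_right (Complex.normSq_nonneg _)

theorem entrySq_mul_le (M N : Matrix (Fin 2) (Fin 2) ℂ) :
    entrySq (M * N) ≤ entrySq M * entrySq N := by
  simp only [entrySq, Matrix.mul_apply, Fin.sum_univ_two]
  refine le_of_le_of_eq (add_le_add (add_le_add (add_le_add (normSq_inner_le _ _ _ _)
    (normSq_inner_le _ _ _ _)) (normSq_inner_le _ _ _ _)) (normSq_inner_le _ _ _ _)) ?_
  ring

/-- The upper triangular matrix moving the base point to `p`. -/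
def pointGL (p : HSpace) : GL (Fin 2) ℂ :=
  GeneralLinearGroup.mkOfDetNeZero !![(p.r : ℂ), p.z; 0, 1] (by
    rw [Matrix.det_fin_two_of]; simp [p.r_pos.ne'])

theorem coe_pointGL (p : HSpace) :
    (pointGL p : Matrix (Fin 2) (Fin 2) ℂ) = !![(p.r : ℂ), p.z; 0, 1] := rfl

theorem pointGL_smul_base (p : HSpace) : pointGL p • HSpace.base = p := by
  have hr := p.r_pos
  ext
  · rw [HSpace.smul_z, HSpace.denSq, coe_pointGL]
    simp [HSpace.base]
  · rw [HSpace.smul_r, HSpace.denSq, HSpace.absDet, coe_pointGL]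
    simp [HSpace.base, Matrix.det_fin_two, abs_of_pos hr]

theorem coshDist_base_smul (M : GL (Fin 2) ℂ) :
    HSpace.coshDist HSpace.base (M • HSpace.base) =
      entrySq (M : Matrix (Fin 2) (Fin 2) ℂ) / (2 * HSpace.absDet M) := by
  apply Complex.ofReal_injective
  have hb : HSpace.base.herm = 1 := by
    rw [HSpace.herm]
    ext i j
    fin_cases i <;> fin_cases j <;> simp [HSpace.base]
  rw [HSpace.coshDist_eq_trace, hb, HSpace.herm_smul, hb, adjugate_one, one_mul, mul_one,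
    trace_smul, Matrix.trace_fin_two, entrySq]
  simp only [Matrix.mul_apply, Fin.sum_univ_two, Matrix.conjTranspose_apply, RCLike.star_def,
    Complex.mul_conj, smul_eq_mul]
  push_cast
  ring

/-- The matrix of `g` in the coordinates at `p` and `q`. -/
def relGL (g : GL (Fin 2) ℂ) (p q : HSpace) : GL (Fin 2) ℂ := (pointGL q)⁻¹ * g * pointGL p

theorem relGL_mul (g h : GL (Fin 2) ℂ) (p q o : HSpace) :
    relGL (g * h) p o = relGL g q o * relGL h p q := by
  simp [relGL, mul_assoc]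

theorem coshDist_eq_rel (g : GL (Fin 2) ℂ) (p q : HSpace) :
    HSpace.coshDist q (g • p) = entrySq (relGL g p q : Matrix (Fin 2) (Fin 2) ℂ) /
      (2 * HSpace.absDet (relGL g p q)) := by
  rw [← coshDist_base_smul, ← HSpace.coshDist_smul (pointGL q) HSpace.base, pointGL_smul_base,
    relGL, mul_smul, mul_smul, smul_inv_smul, pointGL_smul_base]

theorem entrySq_rel_le {g : GL (Fin 2) ℂ} {p q : HSpace} {T : ℝ}
    (h : HSpace.coshDist q (g • p) ≤ T) :
    entrySq (relGL g p q : Matrix (Fin 2) (Fin 2) ℂ) ≤ 2 * T * HSpace.absDet (relGL g p q) := by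
  rw [coshDist_eq_rel, div_le_iff₀ (mul_pos two_pos (HSpace.absDet_pos _))] at h
  linarith

theorem absDet_mul (g h : GL (Fin 2) ℂ) :
    HSpace.absDet (g * h) = HSpace.absDet g * HSpace.absDet h := by
  simp [HSpace.absDet]

/-- The invariant of a matrix conjugate to one moving a point a bounded distance. -/
theorem norm_matInv_le_of_entrySq {M : GL (Fin 2) ℂ} {T : ℝ}
    (h : entrySq (M : Matrix (Fin 2) (Fin 2) ℂ) ≤ T * HSpace.absDet M) :
    ‖matInv (M : Matrix (Fin 2) (Fin 2) ℂ)‖ ≤ 2 * T := by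
  rw [matInv, norm_div, norm_pow, ← Complex.normSq_eq_norm_sq,
    div_le_iff₀ (show 0 < ‖(M : Matrix (Fin 2) (Fin 2) ℂ).det‖ from HSpace.absDet_pos M)]
  calc Complex.normSq (M : Matrix (Fin 2) (Fin 2) ℂ).trace ≤ 2 * entrySq (M : Matrix (Fin 2) (Fin 2) ℂ) :=
        normSq_trace_le _
    _ ≤ 2 * (T * HSpace.absDet M) := by linarith
    _ = _ := by rw [HSpace.absDet]; ring

theorem matInv_relGL_self (g : GL (Fin 2) ℂ) (p : HSpace) :
    matInv (relGL g p p : Matrix (Fin 2) (Fin 2) ℂ) = matInv (g : Matrix (Fin 2) (Fin 2) ℂ) := by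
  have := matInv_conj (pointGL p)⁻¹ (g : Matrix (Fin 2) (Fin 2) ℂ)
  rw [inv_inv] at this
  rw [relGL, Units.val_mul, Units.val_mul, this]

theorem norm_matInv_le_of_coshDist {g : GL (Fin 2) ℂ} {p : HSpace} {T : ℝ}
    (h : HSpace.coshDist p (g • p) ≤ T) :
    ‖matInv (g : Matrix (Fin 2) (Fin 2) ℂ)‖ ≤ 4 * T := by
  rw [← matInv_relGL_self g p]
  linarith [norm_matInv_le_of_entrySq (entrySq_rel_le h)]

/-- The same along a chain of three steps. -/
theorem norm_matInv_le_of_chain {g₀ g₁ g₂ : GL (Fin 2) ℂ} {p₀ p₁ p₂ : HSpace} {T : ℝ}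
    (h₀ : HSpace.coshDist p₀ (g₀ • p₁) ≤ T) (h₁ : HSpace.coshDist p₁ (g₁ • p₂) ≤ T)
    (h₂ : HSpace.coshDist p₂ (g₂ • p₀) ≤ T) :
    ‖matInv ((g₀ * g₁ * g₂ : GL (Fin 2) ℂ) : Matrix (Fin 2) (Fin 2) ℂ)‖ ≤ 16 * T ^ 3 := by
  rw [← matInv_relGL_self (g₀ * g₁ * g₂) p₀, relGL_mul _ g₂ p₀ p₂ p₀, relGL_mul g₀ g₁ p₂ p₁ p₀]
  set A := relGL g₀ p₁ p₀
  set B := relGL g₁ p₂ p₁
  set C := relGL g₂ p₀ p₂
  have a : entrySq (A : Matrix (Fin 2) (Fin 2) ℂ) ≤ 2 * T * HSpace.absDet A := entrySq_rel_le h₀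
  have b : entrySq (B : Matrix (Fin 2) (Fin 2) ℂ) ≤ 2 * T * HSpace.absDet B := entrySq_rel_le h₁
  have c : entrySq (C : Matrix (Fin 2) (Fin 2) ℂ) ≤ 2 * T * HSpace.absDet C := entrySq_rel_le h₂
  have nn : ∀ M : Matrix (Fin 2) (Fin 2) ℂ, 0 ≤ entrySq M := fun M =>
    (Complex.normSq_nonneg _).trans (normSq_le_entrySq M 0 0)
  have key : entrySq ((A * B * C : GL (Fin 2) ℂ) : Matrix (Fin 2) (Fin 2) ℂ) ≤
      8 * T ^ 3 * HSpace.absDet (A * B * C) := by
    rw [Units.val_mul, Units.val_mul]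
    refine (entrySq_mul_le _ _).trans ((mul_le_mul ((entrySq_mul_le _ _).trans
      (mul_le_mul a b (nn _) ((nn _).trans a))) c (nn _) ?_).trans_eq ?_)
    · exact mul_nonneg ((nn _).trans a) ((nn _).trans b)
    · rw [absDet_mul, absDet_mul]; ring
  linarith [norm_matInv_le_of_entrySq key]

variable {K : Type*} [Field K] [NumberField K] {ι : Type*} [Fintype ι]

/-- In Siegel boxes, only finitely many lattice matrices that are not upper triangular move one
point near another. -/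
theorem finite_near (Φ : Frame K ι) {d : 𝓞 K} (hd : d ≠ 0) {c C R : ℝ} (hc : 0 < c) (T : ℝ) :
    (prodRatio '' {g : GL (Fin 2) K | (g : Matrix (Fin 2) (Fin 2) K) 1 0 ≠ 0 ∧
      (∀ j k l m, ∃ a : 𝓞 K, prodRatio g j k l m * d = a) ∧
      ∃ p q : ι → HSpace, InBox c C R p ∧ InBox c C R q ∧
        ∀ i, HSpace.coshDist (q i) (Φ.toInf i g • p i) ≤ T}).Finite := by
  classical
  have hF := isFrame_of_frame Φ
  have : Nonempty ι := hF.placeEquiv.nonempty
  set n := Fintype.card ι with hn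
  set Nd : ℝ := |(Algebra.norm ℚ (d : K) : ℝ)| with hNd
  set S : ℝ := max 1 ((2 * |T|) ^ (2 * n) * Nd / (c ^ 4) ^ (n - 1)) with hS
  set Rm : ℝ := S / c with hRm
  set B : ℝ := (1 + |R| + Rm) ^ 4 * (1 + c⁻¹) ^ 2 * (2 * |T| * (Rm / c)) with hB
  have hfin := hF.finite_bounded hd B
  refine (Set.Finite.pi fun _ => Set.Finite.pi fun _ => Set.Finite.pi fun _ =>
    Set.Finite.pi fun _ => hfin).subset ?_
  rintro _ ⟨g, ⟨hg, hlat, p, q, hp, hq, hnear⟩, rfl⟩
  simp only [Set.mem_pi, Set.mem_univ, true_implies, Set.mem_ofPred_eq]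
  intro j k l m
  refine ⟨hlat j k l m, fun i => ?_⟩
  have hdet := (Matrix.isUnits_det_units g).ne_zero
  have hΔ : ∀ i, 0 < ‖Φ.emb i (g : Matrix (Fin 2) (Fin 2) K).det‖ := fun i => by simpa using hdet
  have hrel : ∀ i, HSpace.absDet (relGL (Φ.toInf i g) (p i) (q i)) =
      ‖Φ.emb i (g : Matrix (Fin 2) (Fin 2) K).det‖ * ((p i).r / (q i).r) := by
    intro i
    have hb : ∀ o : HSpace, HSpace.absDet (pointGL o) = o.r := fun o => by
      rw [HSpace.absDet, coe_pointGL, Matrix.det_fin_two_of]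
      simp [abs_of_pos o.r_pos]
    have hinv : HSpace.absDet (pointGL (q i))⁻¹ = (q i).r⁻¹ := by
      refine eq_inv_of_mul_eq_one_left ?_
      rw [← hb (q i), ← absDet_mul, inv_mul_cancel]
      simp [HSpace.absDet]
    have hg' : HSpace.absDet (Φ.toInf i g) = ‖Φ.emb i (g : Matrix (Fin 2) (Fin 2) K).det‖ := by
      rw [HSpace.absDet, det_fin_two, det_fin_two, map_sub, map_mul, map_mul]
      rfl
    rw [relGL, absDet_mul, absDet_mul, hinv, hb, hg']
    ring
  have hent : ∀ i, ∀ a b : Fin 2, Complex.normSq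
      ((relGL (Φ.toInf i g) (p i) (q i) : Matrix (Fin 2) (Fin 2) ℂ) a b) ≤
      2 * |T| * ‖Φ.emb i (g : Matrix (Fin 2) (Fin 2) K).det‖ * ((p i).r / (q i).r) := by
    intro i a b
    have h : entrySq (relGL (Φ.toInf i g) (p i) (q i) : Matrix (Fin 2) (Fin 2) ℂ) ≤
        2 * T * HSpace.absDet (relGL (Φ.toInf i g) (p i) (q i)) := entrySq_rel_le (hnear i)
    rw [hrel] at h
    refine (normSq_le_entrySq _ a b).trans (h.trans ?_)
    rw [mul_assoc (2 * |T|)]
    exact mul_le_mul_of_nonneg_right (by linarith [le_abs_self T])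
      (mul_nonneg (hΔ i).le (div_nonneg (p i).r_pos.le (q i).r_pos.le))
  have hM10 : ∀ i, (relGL (Φ.toInf i g) (p i) (q i) : Matrix (Fin 2) (Fin 2) ℂ) 1 0 =
      Φ.emb i ((g : Matrix (Fin 2) (Fin 2) K) 1 0) * ((p i).r : ℂ) := by
    intro i
    have hq' : ((pointGL (q i))⁻¹ : GL (Fin 2) ℂ).1 =
        !![((q i).r : ℂ)⁻¹, -(q i).z / ((q i).r : ℂ); 0, 1] := by
      refine Units.inv_eq_of_mul_eq_one_right ?_
      have hr : ((q i).r : ℂ) ≠ 0 := Complex.ofReal_ne_zero.mpr (q i).r_pos.ne'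
      rw [coe_pointGL]
      ext a b
      fin_cases a <;> fin_cases b <;> simp [Matrix.mul_apply, Fin.sum_univ_two] <;> field_simp <;>
        ring
    rw [relGL, Units.val_mul, Units.val_mul, hq', coe_pointGL]
    simp [Matrix.mul_apply, Fin.sum_univ_two, Matrix.vecMul, dotProduct]
    exact Or.inl rfl
  set x := prodRatio g 1 0 1 0 with hx
  have hx0 : x ≠ 0 := div_ne_zero (mul_ne_zero hg hg) hdet
  set P : ι → ℝ := fun i => (p i).r * (q i).r with hP
  have hPx : ∀ i, P i * ‖Φ.emb i x‖ ≤ 2 * |T| := by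
    intro i
    have h := hent i 1 0
    rw [hM10 i, Complex.normSq_eq_norm_sq, norm_mul, Complex.norm_real,
      Real.norm_of_nonneg (p i).r_pos.le] at h
    have hp0 := (p i).r_pos
    have hq0 := (q i).r_pos
    simp only [hP, hx, prodRatio, map_div₀, map_mul, norm_div, norm_mul]
    rw [mul_div_assoc', div_le_iff₀ (hΔ i)]
    refine le_of_mul_le_mul_right ?_ (div_pos hp0 hq0)
    refine le_trans (le_of_eq ?_) h
    field_simp
  have hP0 : ∀ i, c ^ 4 ≤ P i ^ 2 := fun i => by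
    have : c * c ≤ P i := mul_le_mul (hp.1 i) (hq.1 i) hc.le (p i).r_pos.le
    calc c ^ 4 = (c * c) ^ 2 := by ring
      _ ≤ P i ^ 2 := pow_le_pow_left₀ (by positivity) this 2
  have h1 := hF.le_prod_norm_sq hd hx0 (hlat 1 0 1 0)
  have h2 : ∏ i, P i ^ 2 ≤ (2 * |T|) ^ (2 * n) * Nd := by
    have h3 : (∏ i, P i ^ 2) * ∏ i, ‖Φ.emb i x‖ ^ 2 ≤ (2 * |T|) ^ (2 * n) := by
      rw [← Finset.prod_mul_distrib, pow_mul, hn, ← Finset.card_univ, ← Finset.prod_const]
      refine Finset.prod_le_prod (fun i _ => by positivity) fun i _ => ?_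
      rw [← mul_pow]
      exact pow_le_pow_left₀ (mul_nonneg (mul_nonneg (p i).r_pos.le (q i).r_pos.le)
        (norm_nonneg _)) (hPx i) 2
    have hpos : 0 < Nd := by
      rw [hNd, abs_pos, Rat.cast_ne_zero]
      exact Algebra.norm_ne_zero_iff.mpr (by simpa using hd)
    have h4 := (mul_le_mul_of_nonneg_left h1
      (Finset.prod_nonneg fun i (_ : i ∈ Finset.univ) => sq_nonneg (P i))).trans h3
    rwa [← hNd, mul_inv_le_iff₀ hpos] at h4
  have h5 : P i ^ 2 ≤ (2 * |T|) ^ (2 * n) * Nd / (c ^ 4) ^ (n - 1) := by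
    rw [le_div_iff₀ (by positivity)]
    refine le_trans ?_ h2
    rw [← Finset.mul_prod_erase _ _ (Finset.mem_univ i)]
    refine mul_le_mul_of_nonneg_left ?_ (sq_nonneg _)
    rw [hn, ← Finset.card_univ, ← Finset.card_erase_of_mem (Finset.mem_univ i), ← Finset.prod_const]
    exact Finset.prod_le_prod (fun _ _ => by positivity) fun j _ => hP0 j
  have hPi : P i ≤ S := le_max_one_of_pow_le two_ne_zero
    (mul_nonneg (p i).r_pos.le (q i).r_pos.le) h5
  have hpr : (p i).r ≤ Rm := by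
    rw [hRm, le_div_iff₀ hc]
    exact (mul_le_mul_of_nonneg_left (hq.1 i) (p i).r_pos.le).trans hPi
  have hqr : (q i).r ≤ Rm := by
    rw [hRm, le_div_iff₀ hc, mul_comm]
    exact (mul_le_mul_of_nonneg_right (hp.1 i) (q i).r_pos.le).trans hPi
  have hRm0 : 0 ≤ Rm := (q i).r_pos.le.trans hqr
  set t := Real.sqrt (2 * |T| * ‖Φ.emb i (g : Matrix (Fin 2) (Fin 2) K).det‖ * (Rm / c)) with ht
  have hMle : ∀ a b, ‖(relGL (Φ.toInf i g) (p i) (q i) : Matrix (Fin 2) (Fin 2) ℂ) a b‖ ≤ t := by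
    intro a b
    rw [ht, Real.le_sqrt (norm_nonneg _) (by positivity), ← Complex.normSq_eq_norm_sq]
    refine (hent i a b).trans (mul_le_mul_of_nonneg_left ?_ (by positivity))
    exact div_le_div₀ hRm0 hpr hc (hq.1 i)
  have hg_eq : Φ.toInf i g = pointGL (q i) * relGL (Φ.toInf i g) (p i) (q i) * (pointGL (p i))⁻¹ := by
    simp [relGL, mul_assoc]
  have hbound : ∀ a b, ‖Φ.emb i ((g : Matrix (Fin 2) (Fin 2) K) a b)‖ ≤
      (1 + |R| + Rm) ^ 2 * (1 + c⁻¹) * t := by
    set M := relGL (Φ.toInf i g) (p i) (q i) with hM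
    have ht0 : 0 ≤ t := Real.sqrt_nonneg _
    have hpi : ((pointGL (p i))⁻¹ : GL (Fin 2) ℂ).1 =
        !![((p i).r : ℂ)⁻¹, -(p i).z / ((p i).r : ℂ); 0, 1] := by
      refine Units.inv_eq_of_mul_eq_one_right ?_
      have hr : ((p i).r : ℂ) ≠ 0 := Complex.ofReal_ne_zero.mpr (p i).r_pos.ne'
      rw [coe_pointGL]
      ext a b
      fin_cases a <;> fin_cases b <;> simp [Matrix.mul_apply, Fin.sum_univ_two] <;> field_simp <;>
        ring
    have hinv : ∀ a b, ‖((pointGL (p i))⁻¹ : GL (Fin 2) ℂ).1 a b‖ ≤ (1 + |R| + Rm) * (1 + c⁻¹) := by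
      have hc' : 0 < c⁻¹ := inv_pos.mpr hc
      have hr' : (p i).r⁻¹ ≤ c⁻¹ := inv_anti₀ hc (hp.1 i)
      have hz : ‖(p i).z‖ * (p i).r⁻¹ ≤ |R| * c⁻¹ :=
        mul_le_mul ((hp.2.2 i).trans (le_abs_self R)) hr' (inv_nonneg.mpr (p i).r_pos.le)
          (abs_nonneg R)
      intro a b
      rw [hpi]
      fin_cases a <;> fin_cases b <;>
        simp [abs_of_pos (p i).r_pos, div_eq_mul_inv] <;>
        nlinarith [abs_nonneg R, hRm0, mul_nonneg (abs_nonneg R) hc'.le, mul_nonneg hRm0 hc'.le]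
    have hqm : ∀ a, ‖(pointGL (q i) : Matrix (Fin 2) (Fin 2) ℂ) a 0‖ +
        ‖(pointGL (q i) : Matrix (Fin 2) (Fin 2) ℂ) a 1‖ ≤ 1 + |R| + Rm := by
      intro a
      rw [coe_pointGL]
      fin_cases a <;> simp [abs_of_pos (q i).r_pos] <;>
        linarith [hq.2.2 i, le_abs_self R, abs_nonneg R, hqr, hRm0]
    have hqM : ∀ a b, ‖((pointGL (q i) * M : GL (Fin 2) ℂ) : Matrix (Fin 2) (Fin 2) ℂ) a b‖ ≤
        (1 + |R| + Rm) * t := by
      intro a b
      rw [Units.val_mul, Matrix.mul_apply, Fin.sum_univ_two]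
      refine (norm_add_le _ _).trans ?_
      rw [norm_mul, norm_mul]
      calc _ ≤ ‖(pointGL (q i) : Matrix (Fin 2) (Fin 2) ℂ) a 0‖ * t +
            ‖(pointGL (q i) : Matrix (Fin 2) (Fin 2) ℂ) a 1‖ * t :=
            add_le_add (mul_le_mul_of_nonneg_left (hMle _ _) (norm_nonneg _))
              (mul_le_mul_of_nonneg_left (hMle _ _) (norm_nonneg _))
        _ ≤ _ := by rw [← add_mul]; exact mul_le_mul_of_nonneg_right (hqm a) ht0
    have hcol : ∀ b, ‖((pointGL (p i))⁻¹ : GL (Fin 2) ℂ).1 0 b‖ +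
        ‖((pointGL (p i))⁻¹ : GL (Fin 2) ℂ).1 1 b‖ ≤ (1 + |R| + Rm) * (1 + c⁻¹) := by
      have hc' : 0 < c⁻¹ := inv_pos.mpr hc
      have hr' : (p i).r⁻¹ ≤ c⁻¹ := inv_anti₀ hc (hp.1 i)
      have hz : ‖(p i).z‖ * (p i).r⁻¹ ≤ |R| * c⁻¹ :=
        mul_le_mul ((hp.2.2 i).trans (le_abs_self R)) hr' (inv_nonneg.mpr (p i).r_pos.le)
          (abs_nonneg R)
      intro b
      rw [hpi]
      fin_cases b <;> simp [abs_of_pos (p i).r_pos, div_eq_mul_inv] <;>
        nlinarith [abs_nonneg R, hRm0, mul_nonneg (abs_nonneg R) hc'.le, mul_nonneg hRm0 hc'.le]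
    intro a b
    rw [show Φ.emb i ((g : Matrix (Fin 2) (Fin 2) K) a b) =
      ((Φ.toInf i g : GL (Fin 2) ℂ) : Matrix (Fin 2) (Fin 2) ℂ) a b from rfl, hg_eq,
      Units.val_mul, Matrix.mul_apply, Fin.sum_univ_two]
    refine (norm_add_le _ _).trans ?_
    rw [norm_mul, norm_mul]
    calc _ ≤ (1 + |R| + Rm) * t * ‖((pointGL (p i))⁻¹ : GL (Fin 2) ℂ).1 0 b‖ +
          (1 + |R| + Rm) * t * ‖((pointGL (p i))⁻¹ : GL (Fin 2) ℂ).1 1 b‖ :=
          add_le_add (mul_le_mul_of_nonneg_right (hqM _ _) (norm_nonneg _))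
            (mul_le_mul_of_nonneg_right (hqM _ _) (norm_nonneg _))
      _ ≤ (1 + |R| + Rm) * t * ((1 + |R| + Rm) * (1 + c⁻¹)) := by
          rw [← mul_add]; exact mul_le_mul_of_nonneg_left (hcol b) (by positivity)
      _ = _ := by ring
  rw [prodRatio, map_div₀, map_mul, norm_div, norm_mul, div_le_iff₀ (hΔ i)]
  calc _ ≤ ((1 + |R| + Rm) ^ 2 * (1 + c⁻¹) * t) * ((1 + |R| + Rm) ^ 2 * (1 + c⁻¹) * t) :=
        mul_le_mul (hbound _ _) (hbound _ _) (norm_nonneg _) (by positivity)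
    _ = (1 + |R| + Rm) ^ 4 * (1 + c⁻¹) ^ 2 * (t * t) := by ring
    _ = B * ‖Φ.emb i (g : Matrix (Fin 2) (Fin 2) K).det‖ := by
        rw [ht, Real.mul_self_sqrt (by positivity), hB]; ring

end Fermat.Agent.LT.Descent
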