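/-
The diagonal sum of a test kernel without upper triangular terms has finite mass on the quotient.
-/
import Fermat.Agent.LT.Descent.Support.Arch
import Fermat.Agent.LT.Descent.PPKer
import Fermat.Agent.LT.Spectral.Siegel
import Fermat.Agent.LT.Spectral.Model

set_option autoImplicit false

noncomputable section

open Matrix NumberField IsDedekindDomain MeasureTheory
open scoped MatrixGroups ENNReal

namespace Fermat.Agent.LT.Descent

open Fermat.Agent.LT.Adelic Fermat.Agent.LT.Reduction Fermat.Agent.LT.Geom Fermat.Agent.LT.Spectral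

theorem PPKer.exists_range (k : PPKer) :
    ∃ T : ℝ, ∀ p q, k p q ≠ 0 → HSpace.coshDist p q ≤ T := by
  obtain ⟨T, hT⟩ := k.bounded'
  exact ⟨T, fun p q h => not_lt.mp fun hlt => h (hT p q hlt)⟩

/-- A point-pair kernel is bounded. -/
theorem PPKer.exists_norm_le (k : PPKer) : ∃ B : ℝ, 0 ≤ B ∧ ∀ p q, ‖k p q‖ ≤ B := by
  obtain ⟨T, hT⟩ := k.exists_range
  set T' := max T 1 with hT'
  have hT1 : 1 ≤ T' := le_max_right _ _
  set ε : ℝ := (2 * T')⁻¹ with hε
  have hε0 : 0 < ε := by positivity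
  let pt : ℂ × ℝ → HSpace := fun x => ⟨x.1, max x.2 ε, lt_max_of_lt_right hε0⟩
  have hpt : Continuous pt :=
    continuous_induced_rng.mpr (continuous_fst.prodMk (continuous_snd.max continuous_const))
  have hcomp : IsCompact (Metric.closedBall (0 : ℂ) (2 * T') ×ˢ Set.Icc ε (2 * T')) :=
    (isCompact_closedBall _ _).prod isCompact_Icc
  obtain ⟨B, hB⟩ := hcomp.exists_bound_of_continuousOn
    (f := fun x => k HSpace.base (pt x))
    ((k.continuous'.comp (continuous_const.prodMk hpt)).continuousOn)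
  refine ⟨max B 0, le_max_right _ _, fun p q => ?_⟩
  have hrel : k p q = k HSpace.base (HSpace.rel p q) := by
    have h := k.smul' (HSpace.toPt p) HSpace.base (HSpace.rel p q)
    rwa [HSpace.toPt_smul_base, HSpace.toPt_smul_rel] at h
  rw [hrel]
  set o := HSpace.rel p q
  by_cases h0 : k HSpace.base o = 0
  · rw [h0, norm_zero]; exact le_max_right _ _
  have hd : HSpace.coshDist HSpace.base o ≤ T' := (hT _ _ h0).trans (le_max_left _ _)
  have hr := o.r_pos
  have hd' : Complex.normSq o.z + 1 + o.r ^ 2 ≤ 2 * T' * o.r := by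
    rw [HSpace.coshDist] at hd
    simp only [HSpace.base, zero_sub, Complex.normSq_neg, one_pow, mul_one] at hd
    rw [div_le_iff₀ (by positivity)] at hd
    linarith
  have hn := Complex.normSq_nonneg o.z
  have hr2 : o.r ≤ 2 * T' := by nlinarith
  have hr1 : ε ≤ o.r := by
    rw [hε, inv_le_iff_one_le_mul₀ (by positivity)]
    nlinarith
  have hz : ‖o.z‖ ≤ 2 * T' := by
    rw [← Complex.sq_norm] at hd'
    nlinarith [norm_nonneg o.z]
  have he : pt (o.z, o.r) = o := HSpace.ext rfl (max_eq_left hr1)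
  have := hB (o.z, o.r) ⟨mem_closedBall_zero_iff.mpr hz, hr1, hr2⟩
  rw [he] at this
  exact this.trans (le_max_left _ _)

variable {K : Type*} [Field K] [NumberField K] {ι : Type*} [Fintype ι] {U : Subgroup (GfK K)}

omit [Fintype ι] in
theorem exists_common_den (x : Fin 2 → Fin 2 → Fin 2 → Fin 2 → K) :
    ∃ d : 𝓞 K, d ≠ 0 ∧ ∀ j k l m, ∃ a : 𝓞 K, x j k l m * d = a := by
  obtain ⟨⟨b, hb⟩, hmul⟩ := IsLocalization.exist_integer_multiples (nonZeroDivisors (𝓞 K))
    Finset.univ (fun i : Fin 2 × Fin 2 × Fin 2 × Fin 2 => x i.1 i.2.1 i.2.2.1 i.2.2.2)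
  refine ⟨b, nonZeroDivisors.ne_zero hb, fun j k l m => ?_⟩
  obtain ⟨a, ha⟩ := hmul (j, k, l, m) (Finset.mem_univ _)
  refine ⟨a, ?_⟩
  rw [RingOfIntegers.coe_eq_algebraMap a, ha, Algebra.smul_def, mul_comm]

/-- The matrices carrying `y₂` to `y₁` have their projective coordinates in one lattice. -/
theorem exists_lattice_transporter (hU : IsLevel U) (y₁ y₂ : Yf U) :
    ∃ d : 𝓞 K, d ≠ 0 ∧ ∀ G : GL (Fin 2) K, toGf K G • y₂ = y₁ →
      ∀ j k l m, ∃ a : 𝓞 K, prodRatio G j k l m * d = a := by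
  classical
  by_cases h : ∃ G₀ : GL (Fin 2) K, toGf K G₀ • y₂ = y₁
  · obtain ⟨G₀, hG₀⟩ := h
    obtain ⟨dS, hdS, hS⟩ := exists_lattice_stabilizer hU y₁
    obtain ⟨d0, hd0, h0⟩ := exists_common_den (prodRatio G₀)
    refine ⟨dS * d0, mul_ne_zero hdS hd0, fun G hG j k l m => ?_⟩
    set S := G * G₀⁻¹ with hSdef
    have hSy : toGf K S • y₁ = y₁ := by
      rw [hSdef, map_mul, map_inv, mul_smul, inv_smul_eq_iff.mpr hG₀.symm, hG]
    have key : prodRatio G j k l m = ∑ p, ∑ q, prodRatio S j p l q * prodRatio G₀ p k q m := by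
      have hG' : G = S * G₀ := by rw [hSdef, inv_mul_cancel_right]
      have hdS0 := (Matrix.isUnits_det_units S).ne_zero
      have hd00 := (Matrix.isUnits_det_units G₀).ne_zero
      rw [hG']
      simp only [prodRatio, Units.val_mul, Matrix.det_mul, Matrix.mul_apply, Fin.sum_univ_two]
      field_simp
    have hmem : prodRatio G j k l m * ((dS * d0 : 𝓞 K) : K) ∈ (algebraMap (𝓞 K) K).range := by
      rw [key, Finset.sum_mul]
      refine sum_mem fun p _ => ?_
      rw [Finset.sum_mul]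
      refine sum_mem fun q _ => ?_
      obtain ⟨a, ha⟩ := hS S hSy j p l q
      obtain ⟨b, hb⟩ := h0 p k q m
      refine ⟨a * b, ?_⟩
      simp only [RingOfIntegers.coe_eq_algebraMap, map_mul] at ha hb ⊢
      rw [← ha, ← hb]
      ring
    obtain ⟨a, ha⟩ := hmem
    exact ⟨a, ha.symm⟩
  · exact ⟨1, one_ne_zero, fun G hG => absurd ⟨G, hG⟩ h⟩

/-- Over finitely many finite coordinates only finitely many classes of matrices that are not
upper triangular move a point of a box near a point of a box. -/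
theorem exists_finite_transporters (Φ : Frame K ι) (hU : IsLevel U) {Y0 Y1 : Set (Yf U)}
    (hY0 : Y0.Finite) (hY1 : Y1.Finite) {c C R : ℝ} (hc : 0 < c) (T : ℝ) :
    ∃ F : Finset PGL(2, K), ∀ (g : GL (Fin 2) K) (p q : Space Φ U),
      (g : Matrix (Fin 2) (Fin 2) K) 1 0 ≠ 0 → p ∈ boxSet Φ Y0 c C R → q ∈ boxSet Φ Y0 c C R →
      (g • p).fin ∈ Y1 → (∀ i, HSpace.coshDist (q.pt i) (Φ.toInf i g • p.pt i) ≤ T) →
        ProjGenLinGroup.mk g ∈ F := by
  classical
  choose d hd hlat using fun y : Yf U × Yf U => exists_lattice_transporter hU y.1 y.2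
  set D := ∏ y ∈ (hY1.prod hY0).toFinset, d y with hD
  have hfin := finite_near Φ (Finset.prod_ne_zero_iff.mpr fun y _ => hd y : D ≠ 0) (C := C) (R := R)
    hc T
  choose rep hrep hrepv using fun v : hfin.toFinset => hfin.mem_toFinset.mp v.2
  refine ⟨Finset.univ.image fun v => ProjGenLinGroup.mk (rep v), fun g p q hg hp hq hgp hnear => ?_⟩
  have hmem : prodRatio g ∈ hfin.toFinset := by
    rw [hfin.mem_toFinset]
    refine Set.mem_image_of_mem _ ⟨hg, fun j k l m => ?_, p.pt, q.pt, hp.2, hq.2, hnear⟩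
    have hy : ((g • p).fin, p.fin) ∈ (hY1.prod hY0).toFinset :=
      (hY1.prod hY0).mem_toFinset.mpr ⟨hgp, hp.1⟩
    obtain ⟨a, ha⟩ := hlat ((g • p).fin, p.fin) g rfl j k l m
    obtain ⟨e, he⟩ := Finset.dvd_prod_of_mem d hy
    refine ⟨a * e, ?_⟩
    simp only [RingOfIntegers.coe_eq_algebraMap, map_mul, he] at ha ⊢
    rw [← mul_assoc, ha]
  refine Finset.mem_image.mpr ⟨⟨_, hmem⟩, Finset.mem_univ _, ?_⟩
  obtain ⟨t, ht, hgt⟩ := prodRatio_scalar (hrepv ⟨_, hmem⟩)
  refine ProjGenLinGroup.mk_eq_mk_iff.mpr ⟨Units.mk0 t ht, Units.ext (Matrix.ext fun i j => ?_)⟩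
  rw [hgt i j]
  fin_cases i <;> fin_cases j <;> simp [Matrix.mul_apply, mul_comm]

variable {Φ : Frame K ι}

/-- Integrals of invariant functions against a weight do not depend on the weight. -/
theorem lintegral_weight_eq [Countable (Yf U)] {w w' F : Space Φ U → ℝ≥0∞}
    (hw : IsWeight PGL(2, K) (Space.measure Φ U) w)
    (hw' : IsWeight PGL(2, K) (Space.measure Φ U) w') (hF : Measurable F)
    (hinv : ∀ (g : PGL(2, K)) x, F (g • x) = F x) :
    ∫⁻ x, w x * F x ∂Space.measure Φ U = ∫⁻ x, w' x * F x ∂Space.measure Φ U := by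
  rw [← lintegral_weight_mul_tsum (G := PGL(2, K)) hw (F := fun x => w' x * F x) (hw'.1.mul hF)]
  refine lintegral_congr_ae (hw'.2.mono fun x hx => ?_)
  simp only [hinv, ENNReal.tsum_mul_right, hx, one_mul]

/-- The diagonal sum along a map `t` has finite mass when no term is upper triangular. -/
theorem lintegral_diag_ne_top (hU : IsLevel U) {w : Space Φ U → ℝ≥0∞}
    (hw : IsWeight PGL(2, K) (Space.measure Φ U) w) (k : ι → PPKer) (f : HKer U)
    (t : Space Φ U → Space Φ U) (ht : Measurable t) (s : PGL(2, K) → PGL(2, K))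
    (hts : ∀ g x, t (g • x) = s g • t x)
    (hbox : ∀ (Y0 : Set (Yf U)) (c C R : ℝ), Y0.Finite →
      ∃ Y0' : Set (Yf U), Y0'.Finite ∧ ∀ x ∈ boxSet Φ Y0 c C R, t x ∈ boxSet Φ Y0' c C R)
    (hnu : ∀ (g : GL (Fin 2) K) x,
      testKernel k f x ((ProjGenLinGroup.mk g : PGL(2, K)) • t x) ≠ 0 →
        (g : Matrix (Fin 2) (Fin 2) K) 1 0 ≠ 0) :
    ∫⁻ x, w x * ∑' g : PGL(2, K), ‖testKernel k f x (g • t x)‖ₑ ∂Space.measure Φ U ≠ ⊤ := by
  classical
  have := countable_yf hU
  set F : Space Φ U → ℝ≥0∞ := fun x => ∑' g : PGL(2, K), ‖testKernel k f x (g • t x)‖ₑ with hF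
  have hFm : Measurable F := Measurable.tsum fun g =>
    (measurable_testKernel_comp k f (a := fun x => x) measurable_id
      ((measurable_const_smul g).comp ht)).enorm
  have hFinv : ∀ (h : PGL(2, K)) x, F (h • x) = F x := fun h x => by
    simp only [hF, hts]
    rw [← ((Equiv.mulLeft h).trans (Equiv.mulRight (s h)⁻¹)).tsum_eq]
    refine tsum_congr fun g => ?_
    simp only [Equiv.trans_apply, Equiv.coe_mulLeft, Equiv.coe_mulRight]
    rw [mul_smul, mul_smul, inv_smul_smul, testKernel_pglSmul]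
  obtain ⟨Y0, c, C, R, w₀, hY0, hc, -, hw₀, hsupp, hle, -⟩ := exists_siegel_weight Φ U hU
  obtain ⟨Y0', hY0', hbox'⟩ := hbox Y0 c C R hY0
  choose Tk hTk using fun i => (k i).exists_range
  choose Bk hBk0 hBk using fun i => (k i).exists_norm_le
  set T := ∑ i, |Tk i| with hT
  have hY1 : (⋃ y ∈ Y0, Function.support (f y)).Finite := hY0.biUnion fun y _ => f.finite_row y
  obtain ⟨G, hG⟩ := exists_finite_transporters Φ hU (hY0.union hY0') hY1 (C := C) (R := R) hc T
  set Bf : ℝ := ∑ y ∈ hY0.toFinset, ∑ z ∈ hY1.toFinset, ‖f y z‖ with hBf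
  have hbound : ∀ x ∈ boxSet Φ Y0 c C R, F x ≤ (G.card : ℝ≥0∞) * ENNReal.ofReal (Bf * ∏ i, Bk i) := by
    intro x hx
    have hout : ∀ g ∉ G, ‖testKernel k f x (g • t x)‖ₑ = 0 := by
      intro g hg
      induction g using ProjGenLinGroup.induction_on with | mk g₀ => ?_
      rw [enorm_eq_zero]
      by_contra hne
      refine hg (hG g₀ (t x) x (hnu g₀ x hne) ?_ ⟨Or.inl hx.1, hx.2⟩ ?_ fun i => ?_)
      · exact ⟨Or.inr (hbox' x hx).1, (hbox' x hx).2⟩
      · exact Set.mem_biUnion hx.1 (left_ne_zero_of_mul hne)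
      · refine ((hTk i _ _ ?_).trans (le_abs_self _)).trans
          (Finset.single_le_sum (f := fun i => |Tk i|) (fun _ _ => abs_nonneg _) (Finset.mem_univ i))
        exact (Finset.prod_ne_zero_iff.mp (right_ne_zero_of_mul hne)) i (Finset.mem_univ i)
    simp only [hF]
    rw [tsum_eq_sum hout]
    refine (Finset.sum_le_card_nsmul _ _ (ENNReal.ofReal (Bf * ∏ i, Bk i)) fun g _ => ?_).trans_eq
      (nsmul_eq_mul _ _)
    rw [← ofReal_norm, testKernel, norm_mul, norm_prod]
    refine ENNReal.ofReal_le_ofReal (mul_le_mul ?_ (Finset.prod_le_prod (fun _ _ => norm_nonneg _)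
      fun i _ => hBk i _ _) (Finset.prod_nonneg fun _ _ => norm_nonneg _) ?_)
    · by_cases h0 : f x.fin (g • t x).fin = 0
      · rw [h0, norm_zero]; positivity
      · refine le_trans ?_ (Finset.single_le_sum (f := fun y => ∑ z ∈ hY1.toFinset, ‖f y z‖)
          (fun _ _ => by positivity) (hY0.mem_toFinset.mpr hx.1))
        exact Finset.single_le_sum (f := fun z => ‖f x.fin z‖) (fun _ _ => norm_nonneg _)
          (hY1.mem_toFinset.mpr (Set.mem_biUnion hx.1 h0))
    · positivity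
  rw [lintegral_weight_eq hw hw₀ hFm hFinv]
  refine ne_top_of_le_ne_top ?_ (lintegral_mono (g := (boxSet Φ Y0 c C R).indicator
    fun _ => (G.card : ℝ≥0∞) * ENNReal.ofReal (Bf * ∏ i, Bk i)) fun x => ?_)
  · rw [lintegral_indicator_const (measurableSet_boxSet _ _ _ _)]
    exact ENNReal.mul_ne_top (ENNReal.mul_ne_top (ENNReal.natCast_ne_top _) ENNReal.ofReal_ne_top)
      (measure_boxSet_lt_top hY0 hc).ne
  · by_cases hx : x ∈ boxSet Φ Y0 c C R
    · rw [Set.indicator_of_mem hx]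
      exact (mul_le_of_le_one_left' (hle x)).trans (hbound x hx)
    · rw [hsupp x hx, zero_mul]
      exact zero_le

end Fermat.Agent.LT.Descent
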